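import Fermat.Agent.MW.Height.GermSec

/-!
# The zeros of a germ of sections are the germs of the zeros

Hence an equality of divisors over the ultrapower holds for almost all indices.
-/

set_option autoImplicit false

noncomputable section

open Filter
open scoped TensorProduct

namespace Fermat.Agent.MW.Omega

variable {A : Type} [CommRing A] [Algebra Qbar A] (D : CurveBasis Qbar A)

include D in
theorem ev_eq_of_germHom_eq {φ ψ : ℕ → (A →ₐ[Qbar] Qbar)} (h : germHom φ = germHom ψ) :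
    Ev fun n ↦ φ n = ψ n := by
  obtain ⟨s, hs⟩ := D.finiteType.out
  have h1 : Ev fun n ↦ ∀ f : s, φ n f.1 = ψ n f.1 := ev_forall.2 fun f ↦ by
    have h2 := AlgHom.congr_fun h f.1
    rwa [germHom_apply, germHom_apply, toOmega_eq_iff] at h2
  exact h1.mono fun n hn ↦ AlgHom.ext_of_adjoin_eq_top hs fun x hx ↦ hn ⟨x, hx⟩

include D in
/-- Germs of points agree exactly when the sequences agree eventually. -/
theorem germPt_eq_iff (P Q : ℕ → Pt Qbar A) :
    germPt P = germPt Q ↔ Ev fun n ↦ P n = Q n := by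
  constructor
  · intro h
    rcases ev_none_or_some P with hP | ⟨φ, hP⟩ <;> rcases ev_none_or_some Q with hQ | ⟨ψ, hQ⟩
    · exact (Filter.Eventually.and hP hQ).mono fun n hn ↦ hn.1.trans hn.2.symm
    · rw [germPt_of_ev_none hP, germPt_of_ev_some hQ] at h
      exact absurd h.symm (Option.some_ne_none _)
    · rw [germPt_of_ev_some hP, germPt_of_ev_none hQ] at h
      exact absurd h (Option.some_ne_none _)
    · rw [germPt_of_ev_some hP, germPt_of_ev_some hQ] at h
      have h2 : germHom φ = germHom ψ := AlgHom.ext fun f ↦ by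
        have h3 := AlgHom.congr_fun (Option.some_injective _ h) ((1 : Omega) ⊗ₜ[Qbar] f)
        simpa only [pointExt_tmul, one_mul] using h3
      exact ((Filter.Eventually.and hP hQ).and (ev_eq_of_germHom_eq D h2)).mono fun n hn ↦ by
        rw [hn.1.1, hn.1.2, hn.2]
  · intro h
    rcases ev_none_or_some P with hP | ⟨φ, hP⟩
    · rw [germPt_of_ev_none hP,
        germPt_of_ev_none ((Filter.Eventually.and hP h).mono fun n hn ↦ hn.2.symm.trans hn.1)]
    · rw [germPt_of_ev_some hP,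
        germPt_of_ev_some (φ := φ) ((Filter.Eventually.and hP h).mono fun n hn ↦
          hn.2.symm.trans hn.1)]

/-- The germ of a constant sequence is the base change of the point. -/
theorem germPt_constant (P : Pt Qbar A) : germPt (fun _ ↦ P) = mapPt Omega P := by
  cases P with
  | none => exact germPt_of_ev_none (Eventually.of_forall fun _ ↦ rfl)
  | some φ =>
    rw [germPt_of_ev_some (φ := fun _ ↦ φ) (Eventually.of_forall fun _ ↦ rfl)]
    rfl

include D in
theorem exists_germHom_eq (ψ : A →ₐ[Qbar] Omega) :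
    ∃ φ : ℕ → Option (A →ₐ[Qbar] Qbar), germPt φ = some (pointExt ψ) := by
  classical
  have hft := D.finiteType
  obtain ⟨k, π, hπ⟩ := Algebra.FiniteType.iff_quotient_mvPolynomial''.1 hft
  obtain ⟨gens, hgens⟩ := (IsNoetherian.noetherian (RingHom.ker π.toRingHom) :
    (RingHom.ker π.toRingHom).FG)
  choose x hx using fun i ↦ toOmega_surjective (ψ (π (MvPolynomial.X i)))
  have heval : ∀ q : MvPolynomial (Fin k) Qbar,
      ψ (π q) = toOmega fun n ↦ MvPolynomial.eval (fun i ↦ x i n) q := fun q ↦ by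
    have h1 : ψ.comp π = toOmegaAlg.comp (AlgHom.pi fun n : ℕ ↦
        MvPolynomial.aeval fun i ↦ x i n) := by
      refine MvPolynomial.algHom_ext fun i ↦ ?_
      show ψ (π (MvPolynomial.X i)) = toOmega fun n ↦ MvPolynomial.aeval _ (MvPolynomial.X i)
      simp only [MvPolynomial.aeval_X]
      exact (hx i).symm
    have h2 := AlgHom.congr_fun h1 q
    exact h2
  have hev : Ev fun n ↦ ∀ g : gens, MvPolynomial.eval (fun i ↦ x i n) g.1 = 0 :=
    ev_forall.2 fun g ↦ by
      have hg : π g.1 = 0 := RingHom.mem_ker.1 (hgens ▸ Ideal.subset_span g.2)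
      have h := heval g.1
      rw [hg, map_zero] at h
      exact toOmega_eq_zero_iff.1 h.symm
  have hex : Ev fun n ↦ ∃ φ : A →ₐ[Qbar] Qbar,
      ∀ q, φ (π q) = MvPolynomial.eval (fun i ↦ x i n) q := hev.mono fun n hn ↦ by
    have hle : RingHom.ker π.toRingHom ≤ RingHom.ker (MvPolynomial.eval fun i ↦ x i n) := by
      rw [← hgens, Ideal.span_le]
      intro g hg
      exact hn ⟨g, hg⟩
    let g : A →+* Qbar := π.toRingHom.liftOfSurjective hπ ⟨MvPolynomial.eval fun i ↦ x i n, hle⟩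
    have hg : ∀ q, g (π q) = MvPolynomial.eval (fun i ↦ x i n) q := fun q ↦
      π.toRingHom.liftOfSurjective_comp_apply hπ ⟨_, hle⟩ q
    refine ⟨{ toRingHom := g, commutes' := fun c ↦ ?_ }, hg⟩
    have h := hg (MvPolynomial.C c)
    rw [← MvPolynomial.algebraMap_eq, AlgHom.commutes, MvPolynomial.algebraMap_eq,
      MvPolynomial.eval_C] at h
    simpa using h
  obtain ⟨n₀, hn₀⟩ := hex.exists
  have : Nonempty (A →ₐ[Qbar] Qbar) := ⟨hn₀.choose⟩
  let φ : ℕ → (A →ₐ[Qbar] Qbar) := fun n ↦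
    if h : ∃ φ : A →ₐ[Qbar] Qbar, ∀ q, φ (π q) = MvPolynomial.eval (fun i ↦ x i n) q
    then h.choose else Classical.arbitrary _
  refine ⟨fun n ↦ some (φ n), ?_⟩
  rw [germPt_of_ev_some (φ := φ) (Eventually.of_forall fun _ ↦ rfl)]
  refine congrArg some (congrArg pointExt (AlgHom.ext fun f ↦ ?_))
  obtain ⟨q, rfl⟩ := hπ f
  rw [germHom_apply, heval, toOmega_eq_iff]
  exact hex.mono fun n hn ↦ by
    show φ n (π q) = _
    simp only [φ, dif_pos hn]
    exact hn.choose_spec q

include D in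
/-- Every point over the ultrapower is a germ. -/
theorem exists_germPt_surj (P : Pt Omega (Omega ⊗[Qbar] A)) :
    ∃ Pn : ℕ → Pt Qbar A, germPt Pn = P := by
  cases P with
  | none => exact ⟨fun _ ↦ none, germPt_of_ev_none (Eventually.of_forall fun _ ↦ rfl)⟩
  | some Φ =>
    obtain ⟨φ, hφ⟩ := exists_germHom_eq D
      ((Φ.restrictScalars Qbar).comp Algebra.TensorProduct.includeRight)
    refine ⟨φ, hφ.trans (congrArg some (Algebra.TensorProduct.ext (AlgHom.ext fun c ↦ ?_)
      (AlgHom.ext fun f ↦ ?_)))⟩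
    · have h := (Φ.commutes c).symm
      rw [Algebra.TensorProduct.algebraMap_apply, Algebra.algebraMap_self, RingHom.id_apply] at h
      show pointExt _ (c ⊗ₜ[Qbar] (1 : A)) = Φ (c ⊗ₜ[Qbar] (1 : A))
      rw [pointExt_tmul, map_one, mul_one]
      exact h
    · show pointExt _ ((1 : Omega) ⊗ₜ[Qbar] f) = Φ ((1 : Omega) ⊗ₜ[Qbar] f)
      rw [pointExt_tmul, one_mul]
      rfl

include D in
/-- Equality of multisets of germs gives eventual equality of the multisets. -/
theorem ev_map_eq_of_germ {ι κ : Type*} [Fintype ι] [Fintype κ] (E : ι → ℕ → Pt Qbar A)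
    (F : κ → ℕ → Pt Qbar A)
    (h : Finset.univ.val.map (fun i ↦ germPt (E i)) = Finset.univ.val.map (fun k ↦ germPt (F k))) :
    Ev fun n ↦ Finset.univ.val.map (fun i ↦ E i n) = Finset.univ.val.map fun k ↦ F k n := by
  classical
  let G : ι ⊕ κ → ℕ → Pt Qbar A := Sum.elim E F
  have hG : Ev fun n ↦ ∀ ab : (ι ⊕ κ) × (ι ⊕ κ),
      germPt (G ab.1) = germPt (G ab.2) → G ab.1 n = G ab.2 n := ev_forall.2 fun ab ↦ by
    by_cases hab : germPt (G ab.1) = germPt (G ab.2)
    · exact ((germPt_eq_iff D _ _).1 hab).mono fun n hn _ ↦ hn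
    · exact Eventually.of_forall fun n h' ↦ absurd h' hab
  refine hG.mono fun n hn ↦ ?_
  let r : Pt Omega (Omega ⊗[Qbar] A) → Pt Qbar A := fun x ↦
    if hx : ∃ a, germPt (G a) = x then G hx.choose n else none
  have hr : ∀ a, r (germPt (G a)) = G a n := fun a ↦ by
    have hx : ∃ b, germPt (G b) = germPt (G a) := ⟨a, rfl⟩
    simp only [r, dif_pos hx]
    exact hn (hx.choose, a) hx.choose_spec
  have h2 := congrArg (Multiset.map r) h
  have e1 : (r ∘ fun i ↦ germPt (E i)) = fun i ↦ E i n := funext fun i ↦ hr (Sum.inl i)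
  have e2 : (r ∘ fun k ↦ germPt (F k)) = fun k ↦ F k n := funext fun k ↦ hr (Sum.inr k)
  rw [Multiset.map_map, Multiset.map_map, e1, e2] at h2
  exact h2

variable [IsDedekindDomain A]

theorem zeros_prod {α : Type*} {K B : Type} [Field K] [IsAlgClosed K] [CommRing B] [Algebra K B]
    [IsDedekindDomain B] (E : CurveBasis K B) (s : Finset α) (u : α → B) (M : ℕ)
    (h : ∀ j ∈ s, u j ∈ E.lev M) (h0 : ∀ j ∈ s, u j ≠ 0) :
    E.zeros (s.card * M) (∏ j ∈ s, u j) = ∑ j ∈ s, E.zeros M (u j) := by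
  induction s using Finset.cons_induction with
  | empty =>
    rw [Finset.prod_empty, Finset.sum_empty, Finset.card_empty, zero_mul]
    refine Multiset.card_eq_zero.1 (E.card_zeros one_ne_zero ?_)
    rw [← E.e_zero]
    exact Submodule.subset_span ⟨0, le_refl 0, rfl⟩
  | cons j s hj ih =>
    have hs : ∀ i ∈ s, u i ∈ E.lev M := fun i hi ↦ h i (Finset.mem_cons_of_mem hi)
    have hs0 : ∀ i ∈ s, u i ≠ 0 := fun i hi ↦ h0 i (Finset.mem_cons_of_mem hi)
    have hlev : ∏ i ∈ s, u i ∈ E.lev (s.card * M) := by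
      clear ih hs0 h0 h
      induction s using Finset.cons_induction with
      | empty =>
        rw [Finset.prod_empty, Finset.card_empty, zero_mul, ← E.e_zero]
        exact Submodule.subset_span ⟨0, le_refl 0, rfl⟩
      | cons i t hi iht =>
        rw [Finset.prod_cons, Finset.card_cons, add_mul, one_mul, add_comm]
        exact E.mul_mem_lev (hs i (Finset.mem_cons_self i t))
          (iht (fun h' ↦ hj (Finset.mem_cons_of_mem h'))
            fun k hk ↦ hs k (Finset.mem_cons_of_mem hk))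
    rw [Finset.prod_cons, Finset.card_cons, add_mul, one_mul, add_comm, Finset.sum_cons,
      E.zeros_mul (h0 j (Finset.mem_cons_self j s)) (Finset.prod_ne_zero_iff.2 hs0)
        (h j (Finset.mem_cons_self j s)) hlev, ih hs hs0]

theorem cl_sum_add (E E' : Multiset (Pt Qbar A)) : cl (E + E') = cl E + cl E' := by
  simp [cl]

/-- Sections through each zero, and a section through all the other zeros. -/
theorem exists_factor {ι : Type*} [Fintype ι] {N : ℕ} (hN : Fintype.card ι = N) {t : A}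
    (ht : t ≠ 0) (htN : t ∈ D.lev N) (E : ι → Pt Qbar A)
    (hz : D.zeros N t = Finset.univ.val.map E) :
    ∃ (u : ι → A) (H : A), (∀ j, u j ∈ D.lev (2 * D.genus + 1) ∧ u j ≠ 0 ∧
        D.evSec (2 * D.genus + 1) (E j) (u j) = 0) ∧
      H ∈ D.lev (N * (2 * D.genus)) ∧ H ≠ 0 ∧
      (∀ j, D.evSec (N * (2 * D.genus)) (E j) H ≠ 0) ∧ ∏ j, u j = t * H := by
  classical
  set g2 := 2 * D.genus
  have hu : ∀ j, ∃ u ∈ D.lev (g2 + 1), u ≠ 0 ∧ ∃ F : Multiset (Pt Qbar A),
      D.zeros (g2 + 1) u = {E j} + F ∧ ∀ P ∈ F, P ∉ (D.zeros N t).toFinset := fun j ↦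
    D.exists_section_avoid {E j} (by rw [Multiset.card_singleton]; omega) _
  choose u hu hu0 F hF hFav using hu
  have hcard : ∀ j, Multiset.card (F j) = g2 := fun j ↦ by
    have h := D.card_zeros (hu0 j) (hu j)
    rw [hF j, Multiset.card_add, Multiset.card_singleton] at h
    omega
  have hsplit : ∑ j, D.zeros (g2 + 1) (u j) = D.zeros N t + ∑ j, F j := by
    simp only [hF, Finset.sum_add_distrib, hz]
    congr 1
    exact Multiset.sum_map_singleton (Finset.univ.val.map E) |> fun h ↦ by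
      rwa [Multiset.map_map] at h
  have hprod : ∏ j, u j ≠ 0 := Finset.prod_ne_zero_iff.2 fun j _ ↦ hu0 j
  have hzp := zeros_prod D Finset.univ u (g2 + 1) (fun j _ ↦ hu j) fun j _ ↦ hu0 j
  rw [Finset.card_univ, hN, hsplit] at hzp
  have hclF : cl (∑ j, F j) = 0 := by
    have h := cl_sum_add (D.zeros N t) (∑ j, F j)
    rw [← hzp, D.cl_zeros hprod, D.cl_zeros ht, zero_add] at h
    exact h.symm
  obtain ⟨H, hH0, hH, hzH⟩ := D.exists_zeros_eq _ hclF
  have hcF : Multiset.card (∑ j, F j) = N * g2 := by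
    rw [Multiset.card_sum, Finset.sum_congr rfl fun j _ ↦ hcard j, Finset.sum_const,
      Finset.card_univ, hN, smul_eq_mul]
  rw [hcF] at hH hzH
  have hdeg : N * (g2 + 1) = N + N * g2 := by ring
  rw [hdeg] at hzp
  have hlev : ∏ j, u j ∈ D.lev (N + N * g2) := by
    rw [← hdeg, ← hN, ← Finset.card_univ]
    exact prod_mem_lev D _ u _ fun j _ ↦ hu j
  obtain ⟨c, hc, hcu⟩ := D.exists_smul_eq_of_zeros_eq (mul_ne_zero ht hH0) hprod
    (D.mul_mem_lev htN hH) hlev (by rw [D.zeros_mul ht hH0 htN hH, hzH, hzp])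
  refine ⟨u, c • H, fun j ↦ ⟨hu j, hu0 j, ?_⟩, Submodule.smul_mem _ c hH, smul_ne_zero hc hH0,
    fun j ↦ ?_, ?_⟩
  · rw [D.evSec_eq_zero_iff (hu0 j) (hu j), hF j]
    exact Multiset.mem_add.2 (Or.inl (Multiset.mem_singleton_self _))
  · rw [map_smul, smul_ne_zero_iff, ne_eq, ne_eq, D.evSec_eq_zero_iff hH0 hH, hzH]
    refine ⟨hc, fun hmem ↦ ?_⟩
    obtain ⟨i, -, hi⟩ := Multiset.mem_sum.1 hmem
    refine hFav i _ hi (Multiset.mem_toFinset.2 ?_)
    rw [hz]
    exact Multiset.mem_map_of_mem E (Finset.mem_univ j)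
  · rw [hcu, mul_smul_comm]

variable [IsDedekindDomain (Omega ⊗[Qbar] A)]

/-- The zeros of a germ of sections. -/
theorem zeros_germSec {ι : Type*} [Fintype ι] {N : ℕ} (hN : Fintype.card ι = N) {t : ℕ → A}
    (E : ι → ℕ → Pt Qbar A)
    (h : Ev fun n ↦ t n ∈ D.lev N ∧ t n ≠ 0 ∧
      D.zeros N (t n) = Finset.univ.val.map fun i ↦ E i n) :
    (D.baseChange Omega).zeros N (germSec D N t) =
      Finset.univ.val.map fun i ↦ germPt (E i) := by
  classical
  have hex : ∀ n, ∃ (u : ι → A) (H : A), (t n ∈ D.lev N ∧ t n ≠ 0 ∧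
      D.zeros N (t n) = Finset.univ.val.map fun i ↦ E i n) →
      (∀ j, u j ∈ D.lev (2 * D.genus + 1) ∧ u j ≠ 0 ∧
        D.evSec (2 * D.genus + 1) (E j n) (u j) = 0) ∧
      H ∈ D.lev (N * (2 * D.genus)) ∧ H ≠ 0 ∧
      (∀ j, D.evSec (N * (2 * D.genus)) (E j n) H ≠ 0) ∧ ∏ j, u j = t n * H := fun n ↦ by
    by_cases hn : t n ∈ D.lev N ∧ t n ≠ 0 ∧
        D.zeros N (t n) = Finset.univ.val.map fun i ↦ E i n
    · obtain ⟨u, H, hu⟩ := exists_factor D hN hn.2.1 hn.1 (fun i ↦ E i n) hn.2.2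
      exact ⟨u, H, fun _ ↦ hu⟩
    · exact ⟨0, 0, fun h' ↦ absurd h' hn⟩
  choose u H huH using hex
  set M := 2 * D.genus + 1
  set R := N * (2 * D.genus)
  have hP := h.mono fun n hn ↦ huH n hn
  have htlev : Ev fun n ↦ t n ∈ D.lev N := h.mono fun n hn ↦ hn.1
  have hHlev : Ev fun n ↦ H n ∈ D.lev R := hP.mono fun n hn ↦ hn.2.1
  have hulev : ∀ j, Ev fun n ↦ u n j ∈ D.lev M := fun j ↦ hP.mono fun n hn ↦ (hn.1 j).1
  have hT : germSec D N t ≠ 0 := germSec_ne_zero D (h.mono fun n hn ↦ ⟨hn.1, hn.2.1⟩)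
  have hH : germSec D R H ≠ 0 := germSec_ne_zero D (hP.mono fun n hn ↦ ⟨hn.2.1, hn.2.2.1⟩)
  have hU : ∀ j, germSec D M (fun n ↦ u n j) ≠ 0 := fun j ↦
    germSec_ne_zero D (hP.mono fun n hn ↦ ⟨(hn.1 j).1, (hn.1 j).2.1⟩)
  have hdeg : N * M = N + R := by simp only [M, R]; ring
  have heq : ∏ j, germSec D M (fun n ↦ u n j) = germSec D N t * germSec D R H := by
    rw [← germSec_prod D Finset.univ (fun j n ↦ u n j) M fun j _ ↦ hulev j,
      ← germSec_mul D htlev hHlev, Finset.card_univ, hN, hdeg]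
    exact germSec_congr D (hP.mono fun n hn ↦ hn.2.2.2.2)
  have hz := zeros_prod (D.baseChange Omega) Finset.univ
    (fun j ↦ germSec D M fun n ↦ u n j) M (fun j _ ↦ germSec_mem_lev D M _) fun j _ ↦ hU j
  rw [heq, Finset.card_univ, hN, hdeg, (D.baseChange Omega).zeros_mul hT hH (germSec_mem_lev D N t)
    (germSec_mem_lev D R H)] at hz
  have hmemU : ∀ j, germPt (E j) ∈ (D.baseChange Omega).zeros M (germSec D M fun n ↦ u n j) :=
    fun j ↦ by
      rw [← (D.baseChange Omega).evSec_eq_zero_iff (hU j) (germSec_mem_lev D M _),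
        evSec_germSec D (hulev j), toOmega_eq_zero_iff]
      exact hP.mono fun n hn ↦ (hn.1 j).2.2
  have hnot : ∀ j, germPt (E j) ∉ (D.baseChange Omega).zeros R (germSec D R H) := fun j ↦ by
    rw [← (D.baseChange Omega).evSec_eq_zero_iff hH (germSec_mem_lev D R H),
      evSec_germSec D hHlev, ← ne_eq, toOmega_ne_zero_iff]
    exact hP.mono fun n hn ↦ hn.2.2.2.1 j
  symm
  refine Multiset.eq_of_le_of_card_le (Multiset.le_iff_count.2 fun P ↦ ?_) ?_
  · by_cases hmem : P ∈ Finset.univ.val.map fun i ↦ germPt (E i)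
    · obtain ⟨j, -, rfl⟩ := Multiset.mem_map.1 hmem
      have h1 : Finset.univ.val.map (fun i ↦ germPt (E i)) ≤
          (D.baseChange Omega).zeros N (germSec D N t) +
            (D.baseChange Omega).zeros R (germSec D R H) := by
        rw [hz, ← Multiset.sum_map_singleton (Finset.univ.val.map fun i ↦ germPt (E i)),
          Multiset.map_map]
        exact Finset.sum_le_sum fun i _ ↦ Multiset.singleton_le.2 (hmemU i)
      have h2 := Multiset.le_iff_count.1 h1 (germPt (E j))
      rwa [Multiset.count_add, Multiset.count_eq_zero.2 (hnot j), add_zero] at h2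
    · rw [Multiset.count_eq_zero.2 hmem]
      exact Nat.zero_le _
  · rw [(D.baseChange Omega).card_zeros hT (germSec_mem_lev D N t), Multiset.card_map,
      Finset.card_val, Finset.card_univ, hN]

omit [IsDedekindDomain A] [IsDedekindDomain (Omega ⊗[Qbar] A)] in
theorem exists_seq_germSec {N : ℕ} {T : Omega ⊗[Qbar] A}
    (hT : T ∈ (D.baseChange Omega).lev N) :
    ∃ t : ℕ → A, (∀ n, t n ∈ D.lev N) ∧ germSec D N t = T := by
  choose c hc using fun i ↦ toOmega_surjective ((D.baseChange Omega).coeff i T)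
  refine ⟨fun n ↦ ∑ i ∈ Finset.range (N + 1), c i n • D.e i, fun n ↦ Submodule.sum_mem _ fun i hi ↦
    Submodule.smul_mem _ _ (Submodule.subset_span ⟨i, Nat.lt_succ_iff.1 (Finset.mem_range.1 hi),
      rfl⟩), ?_⟩
  refine (D.baseChange Omega).ext_coeff fun i ↦ ?_
  have hlev : ∀ n, ∑ k ∈ Finset.range (N + 1), c k n • D.e k ∈ D.lev N := fun n ↦
    Submodule.sum_mem _ fun k hk ↦ Submodule.smul_mem _ _
      (Submodule.subset_span ⟨k, Nat.lt_succ_iff.1 (Finset.mem_range.1 hk), rfl⟩)
  rw [coeff_germSec D i (Eventually.of_forall hlev)]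
  by_cases hi : i ∈ D.gaps
  · have h1 : (D.baseChange Omega).coeff i T = 0 := by
      simp [CurveBasis.coeff, CurveBasis.baseChange, hi]
    rw [h1, toOmega_eq_zero_iff]
    exact Eventually.of_forall fun n ↦ by simp [CurveBasis.coeff, hi]
  · have hco : ∀ n, D.coeff i (∑ k ∈ Finset.range (N + 1), c k n • D.e k)
        = if i ≤ N then c i n else 0 := fun n ↦ by
      rw [map_sum]
      have h : ∀ k ∈ Finset.range (N + 1), D.coeff i (c k n • D.e k) =
          if i = k then c k n else 0 := fun k _ ↦ by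
        rw [map_smul]
        by_cases hk : k ∈ D.gaps
        · rw [D.e_gap hk, map_zero, smul_zero, if_neg (fun h' : i = k ↦ hi (h' ▸ hk))]
        · rw [D.coeff_e hk, smul_eq_mul, mul_ite, mul_one, mul_zero]
      rw [Finset.sum_congr rfl h, Finset.sum_ite_eq]
      simp only [Finset.mem_range, Nat.lt_succ_iff]
    simp only [hco]
    split_ifs with hiN
    · exact hc i
    · rw [((D.baseChange Omega).mem_lev_iff.1 hT i (not_le.1 hiN))]
      exact toOmega_eq_zero_iff.2 (Eventually.of_forall fun _ ↦ rfl)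

include D in
/-- A germ of divisors has class `0` exactly when the divisors eventually have class `0`. -/
theorem cl_germ_eq_zero_iff {ι : Type*} [Fintype ι] (E : ι → ℕ → Pt Qbar A) :
    cl (Finset.univ.val.map fun i ↦ germPt (E i)) = 0 ↔
      Ev fun n ↦ cl (Finset.univ.val.map fun i ↦ E i n) = 0 := by
  classical
  set N := Fintype.card ι with hN
  have hcard : ∀ {X : Type} (f : ι → X), Multiset.card (Finset.univ.val.map f) = N := fun f ↦ by
    rw [Multiset.card_map, Finset.card_val, Finset.card_univ]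
  constructor
  · intro h
    obtain ⟨T, hT0, hT, hTz⟩ := (D.baseChange Omega).exists_zeros_eq _ h
    rw [hcard] at hT hTz
    obtain ⟨t, ht, rfl⟩ := exists_seq_germSec D hT
    have hne : Ev fun n ↦ t n ≠ 0 := (ev_not_iff _).2 fun h0 ↦ hT0 (by
      rw [germSec_congr D h0]
      refine Finset.sum_eq_zero fun i _ ↦ ?_
      rw [toOmega_eq_zero_iff.2 (Eventually.of_forall fun _ ↦ map_zero _),
        TensorProduct.zero_tmul])
    have hZ : ∀ n, ∃ Z : Fin N → Pt Qbar A,
        t n ≠ 0 → D.zeros N (t n) = Finset.univ.val.map Z := fun n ↦ by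
      by_cases h0 : t n = 0
      · exact ⟨fun _ ↦ none, fun h' ↦ absurd h0 h'⟩
      · set l := (D.zeros N (t n)).toList
        have hl : l.length = N := by rw [Multiset.length_toList, D.card_zeros h0 (ht n)]
        refine ⟨fun i ↦ l.get (i.cast hl.symm), fun _ ↦ ?_⟩
        rw [Fin.univ_val_map, ← Multiset.coe_toList (D.zeros N (t n))]
        exact congrArg _ (List.ext_get (by simp [l, D.card_zeros h0 (ht n)]) fun i h1 h2 ↦ by
          simp [l])
    choose Z hZ using hZ
    have hk := zeros_germSec D (Fintype.card_fin N) (t := t) (fun i n ↦ Z n i)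
      (hne.mono fun n hn ↦ ⟨ht n, hn, hZ n hn⟩)
    rw [hTz] at hk
    refine ((ev_map_eq_of_germ D _ _ hk).and hne).mono fun n hn ↦ ?_
    rw [hn.1, ← hZ n hn.2]
    exact D.cl_zeros hn.2
  · intro h
    have hex : ∀ n, ∃ t : A, cl (Finset.univ.val.map fun i ↦ E i n) = 0 →
        t ∈ D.lev N ∧ t ≠ 0 ∧ D.zeros N t = Finset.univ.val.map fun i ↦ E i n := fun n ↦ by
      by_cases hn : cl (Finset.univ.val.map fun i ↦ E i n) = 0
      · obtain ⟨t, h0, hl, hz⟩ := D.exists_zeros_eq _ hn
        rw [hcard] at hl hz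
        exact ⟨t, fun _ ↦ ⟨hl, h0, hz⟩⟩
      · exact ⟨0, fun h' ↦ absurd h' hn⟩
    choose t ht using hex
    rw [← zeros_germSec D hN.symm (t := t) E (h.mono fun n hn ↦ ht n hn)]
    exact (D.baseChange Omega).cl_zeros
      (germSec_ne_zero D (h.mono fun n hn ↦ ⟨(ht n hn).1, (ht n hn).2.1⟩))

end Fermat.Agent.MW.Omega
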