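import Fermat.Agent.MW.Height.UltraDefs
import Fermat.Agent.MW.Height.GermZeros

/-!
# Transfer between `ℚ̄` and its ultrapower

Points over the ultrapower are germs of points, there are arbitrarily many algebraically
independent elements, and linear equivalence passes to the ultrapower and back.
-/

set_option autoImplicit false

noncomputable section

open scoped TensorProduct
open Filter

namespace Fermat.Agent.MW

/-- Any finite number of algebraically independent elements exists in the ultrapower. -/
theorem exists_algebraicIndependent_omega (n : ℕ) :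
    ∃ x : Fin n → Omega, AlgebraicIndependent Qbar x :=
  Omega.exists_algebraicIndependent n

variable {A : Type} [CommRing A] [Algebra Qbar A] [IsDedekindDomain A] (D : CurveBasis Qbar A)
  [IsDedekindDomain (Omega ⊗[Qbar] A)]

include D in
omit [IsDedekindDomain A] [IsDedekindDomain (Omega ⊗[Qbar] A)] in
/-- Every point over the ultrapower is a germ. -/
theorem exists_germPt_eq (P : Pt Omega (Omega ⊗[Qbar] A)) :
    ∃ Pn : ℕ → Pt Qbar A, germPt Pn = P :=
  Omega.exists_germPt_surj D P

include D in
omit [IsDedekindDomain A] [IsDedekindDomain (Omega ⊗[Qbar] A)] in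
/-- Germs of points agree exactly when the sequences agree eventually. -/
theorem germPt_eq_germPt_iff (P Q : ℕ → Pt Qbar A) :
    germPt P = germPt Q ↔ ∀ᶠ n in (hyperfilter ℕ : Filter ℕ), P n = Q n :=
  Omega.germPt_eq_iff D P Q

omit [IsDedekindDomain A] [IsDedekindDomain (Omega ⊗[Qbar] A)] in
/-- The germ of a constant sequence is the base change of the point. -/
theorem germPt_const (P : Pt Qbar A) : germPt (fun _ => P) = mapPt Omega P :=
  Omega.germPt_constant P

include D in
/-- Linear equivalence passes to the ultrapower and back. -/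
theorem cl_germ_eq_iff {d d' : ℕ} (E : Fin d → ℕ → Pt Qbar A) (E' : Fin d' → ℕ → Pt Qbar A) :
    cl (Finset.univ.val.map fun i => germPt (E i)) =
        cl (Finset.univ.val.map fun i => germPt (E' i)) ↔
      ∀ᶠ n in (hyperfilter ℕ : Filter ℕ),
        cl (Finset.univ.val.map fun i => E i n) = cl (Finset.univ.val.map fun i => E' i n) := by
  classical
  have hex : ∀ n, ∃ F : Fin D.genus → Pt Qbar A,
      cl (Finset.univ.val.map F) = - cl (Finset.univ.val.map fun i => E' i n) := fun n ↦ by
    obtain ⟨m, hm, hcl⟩ := D.exists_rep_card_eq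
      (- cl (Finset.univ.val.map fun i => E' i n)) (le_refl D.genus)
    have hl : m.toList.length = D.genus := by rw [Multiset.length_toList, hm]
    refine ⟨fun i ↦ m.toList.get (i.cast hl.symm), ?_⟩
    rw [← hcl, Fin.univ_val_map]
    conv_rhs => rw [← Multiset.coe_toList m]
    exact congrArg (fun l : List (Pt Qbar A) ↦ cl (l : Multiset (Pt Qbar A)))
      (List.ext_get (by simp [hl]) fun i _ _ ↦ by simp)
  choose F hF using hex
  let Fs : Fin D.genus → ℕ → Pt Qbar A := fun i n ↦ F n i
  have key : ∀ {r : ℕ} (X : Fin r → ℕ → Pt Qbar A),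
      cl (Finset.univ.val.map fun i => germPt (X i)) +
          cl (Finset.univ.val.map fun i => germPt (Fs i)) = 0 ↔
        ∀ᶠ n in (hyperfilter ℕ : Filter ℕ),
          cl (Finset.univ.val.map fun i => X i n) = cl (Finset.univ.val.map fun i => E' i n) := by
    intro r X
    have h := Omega.cl_germ_eq_zero_iff D (Sum.elim X Fs)
    have hs : ∀ {Y : Type} (a : Fin r ⊕ Fin D.genus → Y),
        Finset.univ.val.map a = Finset.univ.val.map (a ∘ Sum.inl) +
          Finset.univ.val.map (a ∘ Sum.inr) := fun a ↦ by
      rw [← Finset.univ_disjSum_univ, Finset.val_disjSum, Multiset.disjSum, Multiset.map_add,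
        Multiset.map_map, Multiset.map_map]
    rw [hs] at h
    simp only [cl, Multiset.map_add, Multiset.sum_add] at h
    refine h.trans (eventually_congr (Eventually.of_forall fun n ↦ ?_))
    rw [hs (fun i ↦ Sum.elim X Fs i n)]
    simp only [Multiset.map_add, Multiset.sum_add]
    show cl (Finset.univ.val.map fun i ↦ X i n) + cl (Finset.univ.val.map (F n)) = 0 ↔ _
    rw [hF, ← sub_eq_add_neg, sub_eq_zero]
  have h' := (key E').2 (Eventually.of_forall fun n ↦ rfl)
  rw [← key E]
  constructor
  · intro h
    rw [h, h']
  · intro h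
    exact add_right_cancel (h.trans h'.symm)

end Fermat.Agent.MW
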