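import Fermat.Agent.MW.Height.LocalValued
import Fermat.Agent.MW.Height.GermZeros

/-!
# Place-by-place bounds from bounds along sequences

A function of a place and a point bounded along every sequence is bounded at each place. Also the
sizes of coordinates, distances and coefficients of germs.
-/

set_option autoImplicit false

noncomputable section

open Filter
open scoped TensorProduct

namespace Fermat.Agent.MW.Omega

/-- A function of (place, point) which is `≤ O(w)` along every sequence is bounded above at each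
place and nonpositive at almost all places. -/
theorem exists_bound_of_seq {X : Type*} (Φ : Place → X → ℝ)
    (hΦ : ∀ (p : ℕ → Place) (x : ℕ → X) (w : ℝ), Regime p w →
      ∃ C : ℝ, Ev fun n ↦ Φ (p n) (x n) ≤ C * w) :
    ∃ C : Place →₀ ℝ, ∀ p x, Φ p x ≤ C p := by
  classical
  obtain ⟨M, hM⟩ : ∃ M : ℕ, ∀ p x, Φ p x ≤ M := by
    by_contra hne
    simp only [not_exists, not_forall, not_le] at hne
    choose p x hpx using hne
    obtain ⟨C, hC⟩ := hΦ p x 1 (Or.inl rfl)
    obtain ⟨n, h1, h2⟩ := (Filter.Eventually.and hC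
      (ev_of_atTop (eventually_gt_atTop ⌈C⌉₊))).exists
    have h3 : C < n := (Nat.le_ceil C).trans_lt (by exact_mod_cast h2)
    linarith [hpx n]
  have hfin : {p : Place | ∃ x, 0 < Φ p x}.Finite := by
    by_contra hinf
    let q := Set.Infinite.natEmbedding _ hinf
    choose x hx using fun n ↦ (q n).2
    have hreg : Regime (fun n ↦ (q n : Place)) 0 := by
      refine Or.inr ⟨rfl, fun v ↦ ev_of_atTop ?_⟩
      rcases Classical.em (∃ n, (q n : Place) = v) with ⟨n₀, hn₀⟩ | hv
      · refine (eventually_gt_atTop n₀).mono fun n hn hqn ↦ ?_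
        exact hn.ne' (q.injective (Subtype.ext (hqn.trans hn₀.symm)))
      · exact Eventually.of_forall fun n hn ↦ hv ⟨n, hn⟩
    obtain ⟨C, hC⟩ := hΦ _ x 0 hreg
    obtain ⟨n, hn⟩ := hC.exists
    linarith [hx n]
  refine ⟨Finsupp.indicator hfin.toFinset fun _ _ ↦ (M : ℝ), fun p x ↦ ?_⟩
  by_cases hp : p ∈ hfin.toFinset
  · rw [Finsupp.indicator_of_mem hp]
    exact hM p x
  · rw [Finsupp.indicator_of_notMem hp]
    exact not_lt.1 fun hlt ↦ hp (hfin.mem_toFinset.2 ⟨x, hlt⟩)

/-- Boundedness along every sequence gives boundedness at each place and vanishing at almost all. -/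
theorem locBdd_of_seq {X : Type*} {Φ : Place → X → ℝ}
    (hΦ : ∀ (p : ℕ → Place) (x : ℕ → X) (w : ℝ), Regime p w →
      ∃ C : ℝ, Ev fun n ↦ |Φ (p n) (x n)| ≤ C * w) : LocBdd Φ :=
  exists_bound_of_seq (fun p x ↦ |Φ p x|) hΦ

/-- Enumerate a multiset of known cardinality. -/
theorem exists_fin_map {α : Type*} {m : Multiset α} {N : ℕ} (h : Multiset.card m = N) :
    ∃ Z : Fin N → α, m = Finset.univ.val.map Z := by
  have hl : m.toList.length = N := by rw [Multiset.length_toList, h]
  refine ⟨fun i ↦ m.toList.get (i.cast hl.symm), ?_⟩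
  rw [Fin.univ_val_map]
  conv_lhs => rw [← Multiset.coe_toList m]
  exact congrArg _ (List.ext_get (by simp [h]) fun i _ _ ↦ by simp)

/-- A sum over an enumerated multiset. -/
theorem sum_map_univ {α : Type*} {M : Type*} [AddCommMonoid M] {N : ℕ} (Z : Fin N → α)
    (f : α → M) : ((Finset.univ.val.map Z).map f).sum = ∑ i, f (Z i) := by
  rw [Multiset.map_map]
  rfl

/-- A product over an enumerated multiset. -/
theorem prod_map_univ {α : Type*} {M : Type*} [CommMonoid M] {N : ℕ} (Z : Fin N → α)
    (f : α → M) : ((Finset.univ.val.map Z).map f).prod = ∏ i, f (Z i) := by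
  rw [Multiset.map_map]
  rfl

/-- Split the enumeration of `Option (Fin N)` at `none`. -/
theorem map_univ_option {β : Type*} {N : ℕ} (f : Option (Fin N) → β) :
    Finset.univ.val.map f = f none ::ₘ Finset.univ.val.map fun i ↦ f (some i) := by
  show (none ::ₘ Finset.univ.val.map some).map f = _
  rw [Multiset.map_cons, Multiset.map_map]
  rfl

variable {A : Type} [CommRing A] [Algebra Qbar A] [IsDedekindDomain A] (D : CurveBasis Qbar A)
variable {p : ℕ → Place} {w : ℝ} {h : Regime p w}

omit [IsDedekindDomain A] in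
theorem coord_germPt_fun (P : ℕ → Pt Qbar A) :
    (D.baseChange Omega).coord (germPt P) = fun i ↦ toOmega fun n ↦ D.coord (P n) i :=
  funext (coord_germPt D P)

omit [IsDedekindDomain A] in
/-- The size of the coordinates of a germ of points. -/
theorem rep_coord (P : ℕ → Pt Qbar A) :
    Rep h (supMag (valRing p w h).valuation ((D.baseChange Omega).coord (germPt P)))
      fun n ↦ Real.log (supMag (pabs (p n)) (D.coord (P n))) := by
  rw [coord_germPt_fun]
  exact rep_supMag (x := fun n ↦ D.coord (P n)) (Eventually.of_forall fun n ↦ D.coord_ne_zero _)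

omit [IsDedekindDomain A] in
theorem wedge_germ (P Q : ℕ → Pt Qbar A) :
    wedge ((D.baseChange Omega).coord (germPt P)) ((D.baseChange Omega).coord (germPt Q)) =
      fun ij ↦ toOmega fun n ↦ wedge (D.coord (P n)) (D.coord (Q n)) ij := by
  funext ij
  rw [coord_germPt_fun, coord_germPt_fun]
  simp only [wedge, ← map_mul, ← map_sub]
  rfl

omit [IsDedekindDomain A] in
/-- Distinct points have independent coordinate vectors. -/
theorem wedge_coord_ne_zero {P Q : Pt Qbar A} (hPQ : P ≠ Q) :
    wedge (D.coord P) (D.coord Q) ≠ 0 := fun h0 ↦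
  hPQ (D.eq_of_wedge_coord_eq_zero P Q fun i j ↦ congrFun h0 (i, j))

omit [IsDedekindDomain A] in
/-- The size of the distance of two germs of points. -/
theorem rep_dst {P Q : ℕ → Pt Qbar A} (hPQ : Ev fun n ↦ P n ≠ Q n) :
    Rep h ((D.baseChange Omega).dst (valRing p w h).valuation (germPt P) (germPt Q))
      fun n ↦ Real.log (D.dst (pabs (p n)) (P n) (Q n)) := by
  have h1 : Rep h (supMag (valRing p w h).valuation
      (wedge ((D.baseChange Omega).coord (germPt P)) ((D.baseChange Omega).coord (germPt Q))))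
      fun n ↦ Real.log (supMag (pabs (p n)) (wedge (D.coord (P n)) (D.coord (Q n)))) := by
    rw [wedge_germ]
    exact rep_supMag (x := fun n ↦ wedge (D.coord (P n)) (D.coord (Q n)))
      (hPQ.mono fun n hn ↦ wedge_coord_ne_zero D hn)
  refine (h1.div ((rep_coord D P).mul (rep_coord D Q))).congr (hPQ.mono fun n hn ↦ ?_)
  have hw := Mean.supMag_pos (pabs (p n)) (wedge_coord_ne_zero D hn)
  have hP := Mean.supMag_pos (pabs (p n)) (D.coord_ne_zero (P n))
  have hQ := Mean.supMag_pos (pabs (p n)) (D.coord_ne_zero (Q n))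
  rw [CurveBasis.dst, Real.log_div hw.ne' (mul_pos hP hQ).ne', Real.log_mul hP.ne' hQ.ne']

omit [IsDedekindDomain A] in
theorem dst_self_eq_zero (O : ValuationSubring Omega) (P : Pt Omega (Omega ⊗[Qbar] A)) :
    (D.baseChange Omega).dst O.valuation P P = 0 := by
  have h0 : supMag O.valuation (wedge ((D.baseChange Omega).coord P)
      ((D.baseChange Omega).coord P)) = 0 := by
    refine le_antisymm (Finset.sup'_le _ _ fun ij _ ↦ ?_) zero_le
    simp [wedge, mul_comm]
  rw [CurveBasis.dst, h0, zero_div]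

omit [IsDedekindDomain A] in
/-- Points at nonzero distance are eventually distinct. -/
theorem ev_ne_of_dst_ne_zero {O : ValuationSubring Omega} {P Q : ℕ → Pt Qbar A}
    (hd : (D.baseChange Omega).dst O.valuation (germPt P) (germPt Q) ≠ 0) :
    Ev fun n ↦ P n ≠ Q n :=
  (ev_not_iff _).2 fun heq ↦ hd (by
    rw [(germPt_eq_iff D P Q).2 heq]
    exact dst_self_eq_zero D O _)

omit [IsDedekindDomain A] in
/-- The germ of a constant sequence of sections. -/
theorem germSec_const_eq {N : ℕ} {f : A} (hf : f ∈ D.lev N) :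
    germSec D N (fun _ ↦ f) = 1 ⊗ₜ f := by
  refine (D.baseChange Omega).ext_coeff fun i ↦ ?_
  rw [coeff_germSec D i (t := fun _ ↦ f) (Eventually.of_forall fun _ ↦ hf), D.baseChange_coeff,
    one_mul, algebraMap_apply]

omit [IsDedekindDomain A] in
/-- The size of the coefficients of a germ of sections. -/
theorem rep_coeffVec {N : ℕ} {t : ℕ → A} (ht : Ev fun n ↦ t n ∈ D.lev N ∧ t n ≠ 0) :
    Rep h (supMag (valRing p w h).valuation ((D.baseChange Omega).coeffVec N (germSec D N t)))
      fun n ↦ Real.log (supMag (pabs (p n)) (D.coeffVec N (t n))) := by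
  have e : (D.baseChange Omega).coeffVec N (germSec D N t) =
      fun i ↦ toOmega fun n ↦ D.coeffVec N (t n) i :=
    funext fun i ↦ coeff_germSec D i (ht.mono fun n hn ↦ hn.1)
  rw [e]
  refine rep_supMag (x := fun n ↦ D.coeffVec N (t n)) (ht.mono fun n hn h0 ↦ hn.2 ?_)
  rw [← D.sum_coeff_smul hn.1]
  refine Finset.sum_eq_zero fun i hi ↦ ?_
  have h1 : D.coeff i (t n) = 0 := congrFun h0 ⟨i, Finset.mem_range.1 hi⟩
  rw [h1, zero_smul]

omit [IsDedekindDomain A] in
/-- Along an ultrafilter the degree is constant and passes to the germ. -/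
theorem exists_deg_germSec {N : ℕ} {t : ℕ → A} (ht : Ev fun n ↦ t n ∈ D.lev N ∧ t n ≠ 0) :
    ∃ d, (Ev fun n ↦ D.deg (t n) = d) ∧ (D.baseChange Omega).deg (germSec D N t) = d := by
  have h1 : Ev fun n ↦ ∃ d : Fin (N + 1), D.deg (t n) = d := ht.mono fun n hn ↦
    ⟨⟨D.deg (t n), Nat.lt_succ_of_le (D.deg_le_of_mem_lev hn.1)⟩, rfl⟩
  obtain ⟨d, hd⟩ := ev_exists h1
  refine ⟨d, hd, le_antisymm ?_ ?_⟩
  · refine (D.baseChange Omega).deg_le_of_mem_lev
      ((D.baseChange Omega).mem_lev_iff.2 fun m hm ↦ ?_)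
    rw [coeff_germSec D m (ht.mono fun n hn ↦ hn.1), toOmega_eq_zero_iff]
    exact hd.mono fun n hn ↦ D.mem_lev_iff.1 (D.mem_lev_deg (t n)) m (hn ▸ hm)
  · by_contra hlt
    have h2 := (D.baseChange Omega).mem_lev_iff.1
      ((D.baseChange Omega).mem_lev_deg (germSec D N t)) d (not_le.1 hlt)
    rw [coeff_germSec D d (ht.mono fun n hn ↦ hn.1)] at h2
    refine (toOmega_ne_zero_iff.2 ?_) h2
    exact (Eventually.and hd ht).mono fun n hn ↦ by
      have h3 := D.coeff_deg_ne_zero hn.2.2
      rwa [hn.1] at h3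

omit [IsDedekindDomain A] in
/-- Evaluation of a constant section at a germ of points. -/
theorem germ_eval_eq (φ : ℕ → (A →ₐ[Qbar] Qbar)) (f : A) :
    pointExt (germHom φ) ((1 : Omega) ⊗ₜ[Qbar] f) = toOmega fun n ↦ φ n f := by
  rw [pointExt_tmul, one_mul, germHom_apply]

omit [IsDedekindDomain A] in
/-- A polynomial evaluated at a germ is the germ of the values. -/
theorem aeval_toOmega (Δ : Polynomial Qbar) (f : ℕ → Qbar) :
    Polynomial.aeval (toOmega f) Δ = toOmega fun n ↦ Polynomial.eval (f n) Δ := by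
  have h1 : Polynomial.aeval (toOmegaAlg f) Δ = toOmegaAlg (Polynomial.aeval f Δ) :=
    Polynomial.aeval_algHom_apply toOmegaAlg f Δ
  refine h1.trans (congrArg toOmega (funext fun n ↦ ?_))
  simp [Polynomial.coe_aeval_eq_eval]

end Fermat.Agent.MW.Omega
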