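import Mathlib.GroupTheory.Index
import Mathlib.GroupTheory.GroupAction.Quotient
import Mathlib.Algebra.BigOperators.Finprod
import Mathlib.Data.Real.Basic
import Mathlib.Tactic.Group

/-!
# Means of locally constant functions on a group

For a real valued function on a group which is invariant under right translation by a subgroup of
finite index, `avg` is its mean over the cosets. No topology is used.
-/

set_option autoImplicit false

namespace Fermat.Agent.MW.Mean

variable {G : Type*} [Group G]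

/-- The subgroup of right periods of a function on a group. -/
def rightStab {β : Type*} (f : G → β) : Subgroup G where
  carrier := {h | ∀ σ, f (σ * h) = f σ}
  one_mem' σ := by rw [mul_one]
  mul_mem' {a b} ha hb σ := by rw [← mul_assoc, hb, ha]
  inv_mem' {a} ha σ := by
    have h := ha (σ * a⁻¹)
    rw [inv_mul_cancel_right] at h
    exact h.symm

/-- `f` is invariant under right translation by a subgroup of finite index. -/
def IsLC {β : Type*} (f : G → β) : Prop := (rightStab f).FiniteIndex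

/-- Invariance under a subgroup of finite index implies local constancy. -/
theorem IsLC.of_subgroup {β : Type*} {f : G → β} (H : Subgroup G) [H.FiniteIndex]
    (hH : ∀ h ∈ H, ∀ σ, f (σ * h) = f σ) : IsLC f :=
  Subgroup.finiteIndex_of_le (H := H) hH

theorem IsLC.exists_subgroup {β : Type*} {f : G → β} (hf : IsLC f) :
    ∃ H : Subgroup G, H.FiniteIndex ∧ ∀ h ∈ H, ∀ σ, f (σ * h) = f σ :=
  ⟨rightStab f, hf, fun _ h ↦ h⟩

/-- Constants are locally constant. -/
theorem isLC_const {β : Type*} (c : β) : IsLC (fun _ : G ↦ c) :=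
  IsLC.of_subgroup (⊤ : Subgroup G) fun _ _ _ ↦ rfl

/-- Local constancy is stable under composition. -/
theorem IsLC.comp {β γ : Type*} {f : G → β} (hf : IsLC f) (φ : β → γ) :
    IsLC fun σ ↦ φ (f σ) := by
  obtain ⟨H, hH, h⟩ := hf.exists_subgroup
  exact IsLC.of_subgroup H fun a ha σ ↦ by rw [h a ha σ]

/-- Local constancy is stable under binary operations. -/
theorem IsLC.comp₂ {β γ δ : Type*} {f : G → β} {g : G → γ} (hf : IsLC f) (hg : IsLC g)
    (φ : β → γ → δ) : IsLC fun σ ↦ φ (f σ) (g σ) := by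
  obtain ⟨H, hH, h⟩ := hf.exists_subgroup
  obtain ⟨K, hK, k⟩ := hg.exists_subgroup
  exact IsLC.of_subgroup (H ⊓ K) fun a ha σ ↦ by rw [h a ha.1 σ, k a ha.2 σ]

/-- A finite sum of locally constant functions is locally constant. -/
theorem IsLC.finset_sum {α β : Type*} [AddCommMonoid β] (s : Finset α) (f : α → G → β)
    (hf : ∀ a ∈ s, IsLC (f a)) : IsLC fun σ ↦ ∑ a ∈ s, f a σ := by
  induction s using Finset.cons_induction with
  | empty => simpa using isLC_const (0 : β)
  | cons a s ha ih =>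
    simp only [Finset.sum_cons]
    exact (hf a (Finset.mem_cons_self a s)).comp₂
      (ih fun b hb ↦ hf b (Finset.mem_cons_of_mem hb)) (· + ·)

theorem IsLC.translate_right {β : Type*} {f : G → β} (hf : IsLC f) (τ : G) :
    IsLC fun σ ↦ f (σ * τ) := by
  obtain ⟨H, hH, h⟩ := hf.exists_subgroup
  have hidx : (H.comap (MulAut.conj τ⁻¹).toMonoidHom).FiniteIndex :=
    ⟨by
      rw [Subgroup.index_comap_of_surjective _ (MulAut.conj τ⁻¹).surjective]
      exact hH.index_ne_zero⟩
  refine IsLC.of_subgroup (H.comap (MulAut.conj τ⁻¹).toMonoidHom) fun a ha σ ↦ ?_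
  have ha' : τ⁻¹ * a * τ ∈ H := by simpa using ha
  show f (σ * a * τ) = f (σ * τ)
  rw [show σ * a * τ = σ * τ * (τ⁻¹ * a * τ) by group]
  exact h _ ha' _

/-- The mean of `f` over the left cosets of `H` (evaluated at chosen representatives). -/
noncomputable def avgOn (H : Subgroup G) (f : G → ℝ) : ℝ :=
  (∑ᶠ q : G ⧸ H, f q.out) / H.index

/-- The mean of a locally constant function on a group. -/
noncomputable def avg (f : G → ℝ) : ℝ := avgOn (rightStab f) f

/-- An invariant function on a coset, evaluated at the chosen representative. -/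
theorem apply_out_mk {β : Type*} {H : Subgroup G} {f : G → β}
    (hf : ∀ h ∈ H, ∀ σ, f (σ * h) = f σ) (σ : G) :
    f (QuotientGroup.mk (s := H) σ).out = f σ := by
  obtain ⟨h, hh⟩ := QuotientGroup.mk_out_eq_mul H σ
  rw [hh, hf h h.2 σ]

theorem avgOn_eq_of_le {H K : Subgroup G} [H.FiniteIndex] [K.FiniteIndex] (hle : H ≤ K)
    {f : G → ℝ} (hf : ∀ h ∈ K, ∀ σ, f (σ * h) = f σ) : avgOn H f = avgOn K f := by
  classical
  have : Fintype (G ⧸ H) := H.fintypeQuotientOfFiniteIndex
  have : Fintype (G ⧸ K) := K.fintypeQuotientOfFiniteIndex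
  have : Finite (K ⧸ H.subgroupOf K) := Subgroup.finite_quotient_of_finiteIndex
  have : Fintype (K ⧸ H.subgroupOf K) := Fintype.ofFinite _
  let e := Subgroup.quotientEquivProdOfLE hle
  have key : ∀ x : (G ⧸ K) × (K ⧸ H.subgroupOf K), f (e.symm x).out = f x.1.out := by
    rintro ⟨q, r⟩
    have h1 : (e.symm (q, r) : G ⧸ H) = QuotientGroup.mk (q.out * (r.out : G)) := by
      induction r using QuotientGroup.induction_on with
      | H b =>
        obtain ⟨h, hh⟩ := QuotientGroup.mk_out_eq_mul (H.subgroupOf K) b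
        rw [hh]
        refine Eq.trans (?_ : _ = QuotientGroup.mk (q.out * (b : G))) ?_
        · rfl
        · rw [QuotientGroup.eq]
          have : ((h : K) : G) ∈ H := h.2
          simpa [mul_assoc] using this
    rw [h1, apply_out_mk (fun a ha ↦ hf a (hle ha)), hf _ r.out.2]
  have hsum : ∑ q : G ⧸ H, f q.out
      = ∑ x : (G ⧸ K) × (K ⧸ H.subgroupOf K), f x.1.out := by
    rw [← Equiv.sum_comp e.symm fun q ↦ f q.out]
    exact Finset.sum_congr rfl fun x _ ↦ key x
  have hidx : (H.index : ℝ) = (Fintype.card (K ⧸ H.subgroupOf K) : ℝ) * K.index := by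
    rw [← Subgroup.relIndex_mul_index hle, Nat.cast_mul, Subgroup.relIndex,
      Subgroup.index_eq_card, Nat.card_eq_fintype_card]
  have hne : (Fintype.card (K ⧸ H.subgroupOf K) : ℝ) ≠ 0 := Nat.cast_ne_zero.2 Fintype.card_ne_zero
  rw [avgOn, avgOn, finsum_eq_sum_of_fintype, finsum_eq_sum_of_fintype, hsum,
    Fintype.sum_prod_type, hidx]
  simp only [Finset.sum_const, Finset.card_univ, nsmul_eq_mul]
  rw [← Finset.mul_sum, mul_div_mul_left _ _ hne]

/-- The mean may be computed on any subgroup of invariance of finite index. -/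
theorem avg_eq_avgOn {H : Subgroup G} [H.FiniteIndex] {f : G → ℝ}
    (hf : ∀ h ∈ H, ∀ σ, f (σ * h) = f σ) : avg f = avgOn H f := by
  have : (rightStab f).FiniteIndex := IsLC.of_subgroup H hf
  exact (avgOn_eq_of_le (H := H) (K := rightStab f) hf fun _ h ↦ h).symm

/-- The mean is additive. -/
theorem avg_add {f g : G → ℝ} (hf : IsLC f) (hg : IsLC g) :
    avg (fun σ ↦ f σ + g σ) = avg f + avg g := by
  obtain ⟨H, hH, h⟩ := hf.exists_subgroup
  obtain ⟨K, hK, k⟩ := hg.exists_subgroup
  have : Fintype (G ⧸ (H ⊓ K)) := Subgroup.fintypeQuotientOfFiniteIndex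
  rw [avg_eq_avgOn (H := H ⊓ K) (f := fun σ ↦ f σ + g σ)
      (fun a ha σ ↦ by rw [h a ha.1, k a ha.2]),
    avg_eq_avgOn (H := H ⊓ K) (fun a ha ↦ h a ha.1),
    avg_eq_avgOn (H := H ⊓ K) (fun a ha ↦ k a ha.2)]
  simp only [avgOn, finsum_eq_sum_of_fintype, Finset.sum_add_distrib, add_div]

/-- The mean is homogeneous. -/
theorem avg_smul {f : G → ℝ} (hf : IsLC f) (c : ℝ) : avg (fun σ ↦ c * f σ) = c * avg f := by
  obtain ⟨H, hH, h⟩ := hf.exists_subgroup
  have : Fintype (G ⧸ H) := Subgroup.fintypeQuotientOfFiniteIndex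
  rw [avg_eq_avgOn (H := H) (f := fun σ ↦ c * f σ) (fun a ha σ ↦ by rw [h a ha]),
    avg_eq_avgOn h]
  simp only [avgOn, finsum_eq_sum_of_fintype, ← Finset.mul_sum, mul_div_assoc]

/-- The mean of a constant. -/
theorem avg_const (c : ℝ) : avg (fun _ : G ↦ c) = c := by
  rw [avg_eq_avgOn (H := (⊤ : Subgroup G)) fun _ _ _ ↦ rfl]
  have : Fintype (G ⧸ (⊤ : Subgroup G)) := Subgroup.fintypeQuotientOfFiniteIndex
  have h1 : Fintype.card (G ⧸ (⊤ : Subgroup G)) = 1 := by
    rw [← Nat.card_eq_fintype_card, ← Subgroup.index_eq_card, Subgroup.index_top]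
  simp [avgOn, finsum_eq_sum_of_fintype, h1]

/-- The mean is monotone. -/
theorem avg_mono {f g : G → ℝ} (hf : IsLC f) (hg : IsLC g) (hle : ∀ σ, f σ ≤ g σ) :
    avg f ≤ avg g := by
  obtain ⟨H, hH, h⟩ := hf.exists_subgroup
  obtain ⟨K, hK, k⟩ := hg.exists_subgroup
  have : Fintype (G ⧸ (H ⊓ K)) := Subgroup.fintypeQuotientOfFiniteIndex
  rw [avg_eq_avgOn (H := H ⊓ K) (fun a ha ↦ h a ha.1),
    avg_eq_avgOn (H := H ⊓ K) (fun a ha ↦ k a ha.2), avgOn, avgOn,
    finsum_eq_sum_of_fintype, finsum_eq_sum_of_fintype]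
  exact div_le_div_of_nonneg_right (Finset.sum_le_sum fun q _ ↦ hle _) (Nat.cast_nonneg _)

/-- The mean is invariant under right translation. -/
theorem avg_translate_right {f : G → ℝ} (hf : IsLC f) (τ : G) :
    avg (fun σ ↦ f (σ * τ)) = avg f := by
  obtain ⟨H, hH, h⟩ := hf.exists_subgroup
  obtain ⟨K, hK, k⟩ := (hf.translate_right τ).exists_subgroup
  -- conjugate everything to the same normal subgroup
  have hN : (H ⊓ K).normalCore.FiniteIndex := Subgroup.finiteIndex_normalCore _
  set N := (H ⊓ K).normalCore with hNdef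
  have hNle : N ≤ H ⊓ K := Subgroup.normalCore_le _
  have : Fintype (G ⧸ N) := Subgroup.fintypeQuotientOfFiniteIndex
  rw [avg_eq_avgOn (H := N) (f := fun σ ↦ f (σ * τ)) (fun a ha ↦ k a (hNle ha).2),
    avg_eq_avgOn (H := N) (fun a ha ↦ h a (hNle ha).1), avgOn, avgOn, finsum_eq_sum_of_fintype,
    finsum_eq_sum_of_fintype]
  congr 1
  rw [← Equiv.sum_comp (Equiv.mulRight (QuotientGroup.mk τ : G ⧸ N)) fun q : G ⧸ N ↦ f q.out]
  refine Finset.sum_congr rfl fun q _ ↦ ?_
  induction q using QuotientGroup.induction_on with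
  | H a =>
    show f (_ * τ) = f ((QuotientGroup.mk a : G ⧸ N) * QuotientGroup.mk τ).out
    rw [← QuotientGroup.mk_mul, apply_out_mk fun b hb ↦ h b (hNle hb).1,
      apply_out_mk (f := fun σ ↦ f (σ * τ)) fun b hb ↦ k b (hNle hb).2]

end Fermat.Agent.MW.Mean
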