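import Fermat.Agent.MW.Height.Defs
import Fermat.Agent.MW.Height.GroupMean
import Mathlib.Analysis.SpecialFunctions.Log.Basic
import Mathlib.FieldTheory.Galois.Infinite
import Mathlib.NumberTheory.Padics.Complex
import Mathlib.RingTheory.Localization.Integral
import Mathlib.RingTheory.Bezout
import Mathlib.RingTheory.Valuation.ValuationSubring
import Mathlib.Algebra.GCDMonoid.IntegrallyClosed

/-!
# Absolute values on `ℚ̄` indexed by (place of `ℚ`, automorphism), and the adelic mean

`absv (p, σ) x` is `‖ι_p (σ x)‖` for one fixed embedding `ι_p` of `ℚ̄` into the algebraic closure of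
`ℚ_[p]` (resp. into `ℂ` for `p = none`). The adelic mean `gmean` of a function of the index is the
sum over the places of `ℚ` of the means over the automorphisms. The product formula says that the
mean of `log |a|` vanishes.
-/

set_option autoImplicit false

noncomputable section

namespace Fermat.Agent.MW.Mean

/-- Indices for the absolute values on `ℚ̄`. -/
abbrev Idx : Type := Place × GalQ

instance instFactPrime (p : Nat.Primes) : Fact (p : ℕ).Prime := ⟨p.2⟩

instance instIsAlgebraicQbar : Algebra.IsAlgebraic ℚ Qbar := AlgebraicClosure.isAlgebraic ℚ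

instance instIsAlgClosureQbar : IsAlgClosure ℚ Qbar := ⟨inferInstance, inferInstance⟩

instance instIsGaloisQbar : IsGalois ℚ Qbar where
  to_normal := IsAlgClosure.normal ℚ Qbar

/-- The embedding used by `pabs` at infinity. -/
def complexEmb : Qbar →ₐ[ℚ] ℂ := IsAlgClosed.lift

/-- The embedding used by `pabs` at a prime. -/
def primeEmb (p : Nat.Primes) : Qbar →ₐ[ℚ] PadicAlgCl (p : ℕ) := IsAlgClosed.lift

theorem pabs_none (x : Qbar) : pabs none x = ‖complexEmb x‖ := rfl

theorem pabs_some (p : Nat.Primes) (x : Qbar) :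
    pabs (some p) x = ‖primeEmb p x‖ := rfl

/-- The absolute value with index `(place, σ)`. -/
def absv (v : Idx) : AbsoluteValue Qbar ℝ :=
  (pabs v.1).comp (f := v.2.toRingEquiv.toRingHom) v.2.injective

theorem absv_apply (p : Place) (σ : GalQ) (x : Qbar) : absv (p, σ) x = pabs p (σ x) := rfl

theorem absv_smul (p : Place) (σ τ : GalQ) (x : Qbar) :
    absv (p, σ) (τ x) = absv (p, σ * τ) x := rfl

/-- The ultrametric inequality at a finite place. -/
theorem absv_add_le_max (p : Nat.Primes) (σ : GalQ) (x y : Qbar) :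
    absv (some p, σ) (x + y) ≤ max (absv (some p, σ) x) (absv (some p, σ) y) := by
  rw [absv_apply, absv_apply, absv_apply, pabs_some, pabs_some, pabs_some, map_add,
    map_add]
  exact PadicAlgCl.isNonarchimedean (p : ℕ) _ _

/-- The archimedean absolute value of a rational number. -/
theorem absv_none_ratCast (σ : GalQ) (r : ℚ) : absv (none, σ) (r : Qbar) = |(r : ℝ)| := by
  rw [absv_apply, map_ratCast, pabs_none, map_ratCast]
  rw [show ((r : ℂ)) = ((r : ℝ) : ℂ) by push_cast; rfl, Complex.norm_real, Real.norm_eq_abs]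

/-- The `p`-adic absolute value of a rational number. -/
theorem absv_some_ratCast (p : Nat.Primes) (σ : GalQ) (r : ℚ) :
    absv (some p, σ) (r : Qbar) = (padicNorm (p : ℕ) r : ℝ) := by
  rw [absv_apply, map_ratCast, pabs_some, map_ratCast,
    ← map_ratCast (algebraMap ℚ_[(p : ℕ)] (PadicAlgCl (p : ℕ))) r,
    ← Padic.eq_padicNorm]
  exact PadicAlgCl.norm_extends _ _

theorem absv_le_one_of_isIntegral (p : Nat.Primes) (σ : GalQ) {x : Qbar} (hx : IsIntegral ℤ x) :
    absv (some p, σ) x ≤ 1 := by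
  let e : Qbar →+* PadicAlgCl (p : ℕ) :=
    (primeEmb p).toRingHom.comp σ.toRingEquiv.toRingHom
  have h1 : IsIntegral ℤ (e x) := map_isIntegral_int e hx
  have h2 : IsIntegral (Valued.v : Valuation (PadicAlgCl (p : ℕ)) NNReal).valuationSubring (e x) :=
    h1.tower_top
  obtain ⟨y, hy⟩ := IsIntegrallyClosed.isIntegral_iff.1 h2
  have h3 : Valued.v (e x) ≤ 1 := hy ▸ y.2
  exact h3

/-- `log |a|` as a function of the index. -/
noncomputable def logAbs (a : Qbar) : Idx → ℝ := fun v ↦ Real.log (absv v a)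

theorem logAbs_mul {a b : Qbar} (ha : a ≠ 0) (hb : b ≠ 0) (v : Idx) :
    logAbs (a * b) v = logAbs a v + logAbs b v := by
  rw [logAbs, logAbs, logAbs, map_mul, Real.log_mul ((absv v).ne_zero ha) ((absv v).ne_zero hb)]

/-- Functions of the index which are locally constant in the automorphism and vanish at almost all
places. -/
structure IsAdelic (F : Idx → ℝ) : Prop where
  finite_bad : {p : Place | ∃ σ, F (p, σ) ≠ 0}.Finite
  isLC : ∀ p, IsLC fun σ ↦ F (p, σ)

/-- The adelic mean. -/
noncomputable def gmean (F : Idx → ℝ) : ℝ := ∑ᶠ p : Place, avg fun σ ↦ F (p, σ)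

/-- The zero function is adelic. -/
theorem IsAdelic.zero : IsAdelic fun _ ↦ 0 :=
  ⟨by simp, fun _ ↦ isLC_const 0⟩

/-- Adelic functions are stable under binary operations fixing `0`. -/
theorem IsAdelic.comp₂ {F K : Idx → ℝ} (hF : IsAdelic F) (hK : IsAdelic K) (φ : ℝ → ℝ → ℝ)
    (h0 : φ 0 0 = 0) : IsAdelic fun v ↦ φ (F v) (K v) := by
  refine ⟨(hF.finite_bad.union hK.finite_bad).subset ?_, fun p ↦ (hF.isLC p).comp₂ (hK.isLC p) φ⟩
  rintro p ⟨σ, hσ⟩
  by_contra h
  simp only [Set.mem_union, Set.mem_ofPred_eq, not_or, not_exists, not_not] at h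
  exact hσ (by simp only [h.1 σ, h.2 σ, h0])

/-- Adelic functions are stable under maps fixing `0`. -/
theorem IsAdelic.comp {F : Idx → ℝ} (hF : IsAdelic F) (φ : ℝ → ℝ) (h0 : φ 0 = 0) :
    IsAdelic fun v ↦ φ (F v) :=
  hF.comp₂ hF (fun a _ ↦ φ a) h0

/-- A sum of adelic functions is adelic. -/
theorem IsAdelic.add {F K : Idx → ℝ} (hF : IsAdelic F) (hK : IsAdelic K) :
    IsAdelic fun v ↦ F v + K v :=
  hF.comp₂ hK (· + ·) (add_zero 0)

/-- A difference of adelic functions is adelic. -/
theorem IsAdelic.sub {F K : Idx → ℝ} (hF : IsAdelic F) (hK : IsAdelic K) :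
    IsAdelic fun v ↦ F v - K v :=
  hF.comp₂ hK (· - ·) (sub_zero 0)

/-- A multiple of an adelic function is adelic. -/
theorem IsAdelic.const_mul {F : Idx → ℝ} (hF : IsAdelic F) (c : ℝ) :
    IsAdelic fun v ↦ c * F v :=
  hF.comp (c * ·) (mul_zero c)

/-- A finite sum of adelic functions is adelic. -/
theorem IsAdelic.finset_sum {α : Type*} (s : Finset α) (F : α → Idx → ℝ)
    (hF : ∀ a ∈ s, IsAdelic (F a)) : IsAdelic fun v ↦ ∑ a ∈ s, F a v := by
  induction s using Finset.cons_induction with
  | empty => simpa using IsAdelic.zero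
  | cons a s ha ih =>
    simp only [Finset.sum_cons]
    exact (hF a (Finset.mem_cons_self a s)).add (ih fun b hb ↦ hF b (Finset.mem_cons_of_mem hb))

/-- The mean of an adelic function vanishes at almost all places. -/
theorem IsAdelic.finite_support {F : Idx → ℝ} (hF : IsAdelic F) :
    (Function.support fun p ↦ avg fun σ ↦ F (p, σ)).Finite := by
  refine hF.finite_bad.subset fun p hp ↦ ?_
  by_contra h
  simp only [Set.mem_ofPred_eq, not_exists, not_not] at h
  exact hp (by simp only [h, avg_const])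

/-- The adelic mean as a finite sum over the places. -/
theorem gmean_eq_sum {F : Idx → ℝ} (_hF : IsAdelic F) (s : Finset Place)
    (hs : ∀ p, p ∉ s → ∀ σ, F (p, σ) = 0) : gmean F = ∑ p ∈ s, avg fun σ ↦ F (p, σ) := by
  refine finsum_eq_sum_of_support_subset _ fun p hp ↦ ?_
  by_contra h
  exact hp (by simp only [hs p h, avg_const])

/-- The adelic mean is additive. -/
theorem gmean_add {F K : Idx → ℝ} (hF : IsAdelic F) (hK : IsAdelic K) :
    gmean (fun v ↦ F v + K v) = gmean F + gmean K := by
  rw [gmean, gmean, gmean, ← finsum_add_distrib hF.finite_support hK.finite_support]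
  exact finsum_congr fun p ↦ avg_add (hF.isLC p) (hK.isLC p)

/-- The adelic mean is homogeneous. -/
theorem gmean_const_mul {F : Idx → ℝ} (hF : IsAdelic F) (c : ℝ) :
    gmean (fun v ↦ c * F v) = c * gmean F := by
  rw [gmean, gmean, mul_finsum]
  exact finsum_congr fun p ↦ avg_smul (hF.isLC p) c

/-- The adelic mean respects subtraction. -/
theorem gmean_sub {F K : Idx → ℝ} (hF : IsAdelic F) (hK : IsAdelic K) :
    gmean (fun v ↦ F v - K v) = gmean F - gmean K := by
  have h := gmean_add (hF.sub hK) hK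
  simp only [sub_add_cancel] at h
  linarith

/-- The adelic mean of `0` is `0`. -/
theorem gmean_zero : gmean (fun _ ↦ 0) = 0 := by
  simp [gmean, avg_const]

/-- The adelic mean commutes with finite sums. -/
theorem gmean_sum {α : Type*} (s : Finset α) (F : α → Idx → ℝ) (hF : ∀ a ∈ s, IsAdelic (F a)) :
    gmean (fun v ↦ ∑ a ∈ s, F a v) = ∑ a ∈ s, gmean (F a) := by
  induction s using Finset.cons_induction with
  | empty => simpa using gmean_zero
  | cons a s ha ih =>
    simp only [Finset.sum_cons]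
    rw [gmean_add (hF a (Finset.mem_cons_self a s))
      (IsAdelic.finset_sum s F fun b hb ↦ hF b (Finset.mem_cons_of_mem hb)),
      ih fun b hb ↦ hF b (Finset.mem_cons_of_mem hb)]

/-- The adelic mean is monotone. -/
theorem gmean_mono {F K : Idx → ℝ} (hF : IsAdelic F) (hK : IsAdelic K) (h : ∀ v, F v ≤ K v) :
    gmean F ≤ gmean K :=
  finsum_le_finsum' hF.finite_support hK.finite_support
    fun p ↦ avg_mono (hF.isLC p) (hK.isLC p) fun σ ↦ h (p, σ)

/-- The adelic mean of a nonnegative function is nonnegative. -/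
theorem gmean_nonneg {F : Idx → ℝ} (hF : IsAdelic F) (h : ∀ v, 0 ≤ F v) : 0 ≤ gmean F :=
  gmean_zero.ge.trans (gmean_mono IsAdelic.zero hF h)

/-- The adelic mean is invariant under translation by an automorphism. -/
theorem gmean_translate {F : Idx → ℝ} (hF : IsAdelic F) (τ : GalQ) :
    gmean (fun v ↦ F (v.1, v.2 * τ)) = gmean F :=
  finsum_congr fun p ↦ avg_translate_right (hF.isLC p) τ

/-- The function which is `C` at the archimedean place and `0` elsewhere. -/
noncomputable def atInfinity (C : ℝ) : Idx → ℝ := fun v ↦ if v.1 = none then C else 0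

/-- A function supported at the archimedean place is adelic. -/
theorem isAdelic_atInfinity (C : ℝ) : IsAdelic (atInfinity C) := by
  refine ⟨(Set.finite_singleton none).subset ?_, fun p ↦ ?_⟩
  · rintro p ⟨σ, hσ⟩
    by_contra h
    exact hσ (if_neg h)
  · exact isLC_const (if p = none then C else 0)

/-- The adelic mean of a constant at the archimedean place. -/
theorem gmean_atInfinity (C : ℝ) : gmean (atInfinity C) = C := by
  rw [gmean_eq_sum (isAdelic_atInfinity C) {none}
    fun p hp _ ↦ if_neg (Finset.notMem_singleton.1 hp), Finset.sum_singleton]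
  exact avg_const C

/-- The stabiliser of an algebraic number has finite index. -/
theorem finiteIndex_stabilizer_qbar (x : Qbar) : (MulAction.stabilizer GalQ x).FiniteIndex := by
  refine ⟨?_⟩
  rw [MulAction.index_stabilizer]
  have hint : IsIntegral ℚ x := (AlgebraicClosure.isAlgebraic ℚ).isAlgebraic x |>.isIntegral
  have hsub : MulAction.orbit GalQ x ⊆ {y | y ∈ (minpoly ℚ x).aroots Qbar} := by
    rintro y ⟨σ, rfl⟩
    simp only [Set.mem_ofPred_eq, Polynomial.mem_aroots]
    refine ⟨minpoly.ne_zero hint, ?_⟩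
    show Polynomial.aeval (σ x) (minpoly ℚ x) = 0
    rw [Polynomial.aeval_algHom_apply σ x, minpoly.aeval, map_zero]
  have hfin : (MulAction.orbit GalQ x).Finite := (Multiset.finite_toSet _).subset hsub
  exact ((Set.ncard_pos hfin).2 (MulAction.nonempty_orbit x)).ne'

/-- An element fixed by all automorphisms is rational. -/
theorem exists_ratCast_of_fixed {x : Qbar} (h : ∀ σ : GalQ, σ x = x) : ∃ r : ℚ, (r : Qbar) = x := by
  obtain ⟨r, hr⟩ := (InfiniteGalois.mem_range_algebraMap_iff_fixed x).2 h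
  exact ⟨r, by simpa using hr⟩

theorem exists_natCast_mul_isIntegral (a : Qbar) :
    ∃ n : ℕ, n ≠ 0 ∧ IsIntegral ℤ ((n : Qbar) * a) := by
  have halg : IsAlgebraic ℤ a :=
    (IsFractionRing.isAlgebraic_iff ℤ ℚ Qbar).2 ((AlgebraicClosure.isAlgebraic ℚ).isAlgebraic a)
  obtain ⟨y, hy0, hy⟩ := halg.exists_integral_multiple
  refine ⟨y.natAbs, Int.natAbs_ne_zero.2 hy0, ?_⟩
  rw [zsmul_eq_mul] at hy
  rcases Int.natAbs_eq y with h | h
  · rw [h] at hy; simpa using hy
  · rw [h] at hy; simpa using hy.neg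

theorem absv_eq_one_of_not_dvd (p : Nat.Primes) (σ : GalQ) {n : ℕ} (h : ¬ (p : ℕ) ∣ n) :
    absv (some p, σ) (n : Qbar) = 1 := by
  rw [← Rat.cast_natCast, absv_some_ratCast]
  exact_mod_cast (padicNorm.nat_eq_one_iff n).2 h

/-- An algebraic number is integral outside finitely many places. -/
theorem absv_le_one_outside (a : Qbar) : ∃ s : Finset Nat.Primes, ∀ p, p ∉ s → ∀ σ,
    absv (some p, σ) a ≤ 1 := by
  classical
  obtain ⟨n, hn, hint⟩ := exists_natCast_mul_isIntegral a
  refine ⟨n.primeFactors.subtype Nat.Prime, fun p hp σ ↦ ?_⟩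
  have hnd : ¬ (p : ℕ) ∣ n := fun h ↦
    hp (Finset.mem_subtype.2 (Nat.mem_primeFactors.2 ⟨p.2, h, hn⟩))
  have h1 := absv_le_one_of_isIntegral p σ hint
  rwa [map_mul, absv_eq_one_of_not_dvd p σ hnd, one_mul] at h1

/-- The logarithm of the absolute values of an algebraic number is adelic. -/
theorem isAdelic_logAbs (a : Qbar) : IsAdelic (logAbs a) := by
  classical
  refine ⟨?_, fun p ↦ ?_⟩
  · rcases eq_or_ne a 0 with rfl | ha
    · simp [logAbs]
    obtain ⟨s, hs⟩ := absv_le_one_outside a
    obtain ⟨t, ht⟩ := absv_le_one_outside a⁻¹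
    refine ((insert none ((s ∪ t).image some) : Finset Place).finite_toSet).subset ?_
    rintro (_ | p) ⟨σ, hσ⟩
    · simp
    by_contra hp
    have hp' : p ∉ s ∧ p ∉ t := by simpa using hp
    have h1 := hs p hp'.1 σ
    have h2 := ht p hp'.2 σ
    rw [map_inv₀, inv_le_one₀ ((absv _).pos ha)] at h2
    exact hσ (by rw [logAbs, le_antisymm h1 h2, Real.log_one])
  · have := finiteIndex_stabilizer_qbar a
    refine IsLC.of_subgroup (MulAction.stabilizer GalQ a) fun h hh σ ↦ ?_
    have ha : h a = a := hh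
    simp only [logAbs, ← absv_smul, ha]

theorem gmean_logAbs_mul {a b : Qbar} (ha : a ≠ 0) (hb : b ≠ 0) :
    gmean (logAbs (a * b)) = gmean (logAbs a) + gmean (logAbs b) := by
  rw [← gmean_add (isAdelic_logAbs a) (isAdelic_logAbs b)]
  exact congrArg gmean (funext (logAbs_mul ha hb))

theorem gmean_logAbs_prod {α : Type*} (s : Finset α) (f : α → Qbar) (hf : ∀ a ∈ s, f a ≠ 0) :
    gmean (logAbs (∏ a ∈ s, f a)) = ∑ a ∈ s, gmean (logAbs (f a)) := by
  induction s using Finset.cons_induction with
  | empty =>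
    rw [Finset.prod_empty, Finset.sum_empty]
    refine (congrArg gmean (funext fun v ↦ ?_)).trans gmean_zero
    rw [logAbs, map_one, Real.log_one]
  | cons a s ha ih =>
    rw [Finset.prod_cons, Finset.sum_cons,
      gmean_logAbs_mul (hf a (Finset.mem_cons_self a s))
        (Finset.prod_ne_zero_iff.2 fun b hb ↦ hf b (Finset.mem_cons_of_mem hb)),
      ih fun b hb ↦ hf b (Finset.mem_cons_of_mem hb)]

theorem gmean_logAbs_natCast {n : ℕ} (hn : n ≠ 0) : gmean (logAbs (n : Qbar)) = 0 := by
  classical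
  let e : {x : ℕ // x.Prime} ↪ Place := ⟨some, Option.some_injective _⟩
  have hmem : none ∉ (n.primeFactors.subtype Nat.Prime).map e := by simp [e]
  rw [gmean_eq_sum (isAdelic_logAbs _) (Finset.cons none _ hmem), Finset.sum_cons, Finset.sum_map]
  · have h1 : ∀ σ : GalQ, logAbs (n : Qbar) (none, σ) = Real.log n := fun σ ↦ by
      rw [logAbs, ← Rat.cast_natCast, absv_none_ratCast]
      simp
    have h2 : ∀ (p : Nat.Primes) (σ : GalQ), logAbs (n : Qbar) (some p, σ)
        = -((n.factorization p : ℕ) * Real.log (p : ℕ)) := fun p σ ↦ by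
      rw [logAbs, ← Rat.cast_natCast, absv_some_ratCast,
        padicNorm.eq_zpow_of_nonzero (by exact_mod_cast hn), padicValRat.of_nat,
        Nat.factorization_def n p.2]
      push_cast
      rw [Real.log_zpow]
      simp
    have hrw : ∀ p : {x : ℕ // x.Prime}, avg (fun σ ↦ logAbs (n : Qbar) (e p, σ))
        = -((n.factorization p : ℕ) * Real.log (p : ℕ)) := fun p ↦ by
      exact (congrArg avg (funext (h2 p))).trans (avg_const _)
    simp only [h1, avg_const]
    rw [Finset.sum_congr rfl fun p _ ↦ hrw p]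
    rw [Finset.sum_subtype_eq_sum_filter (fun x : ℕ ↦ -((n.factorization x : ℕ) * Real.log x)),
      Finset.sum_neg_distrib, Finset.filter_true_of_mem fun x hx ↦ Nat.prime_of_mem_primeFactors hx,
      Real.log_nat_eq_sum_factorization, Finsupp.sum, Nat.support_factorization]
    simp
  · rintro (_ | p) hp σ
    · simp at hp
    have hnd : ¬ (p : ℕ) ∣ n := fun h ↦ hp (Finset.mem_cons.2 (Or.inr (Finset.mem_map.2
      ⟨p, Finset.mem_subtype.2 (Nat.mem_primeFactors.2 ⟨p.2, h, hn⟩), rfl⟩)))
    rw [logAbs, absv_eq_one_of_not_dvd p σ hnd, Real.log_one]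

theorem gmean_logAbs_ratCast {r : ℚ} (hr : r ≠ 0) : gmean (logAbs (r : Qbar)) = 0 := by
  have hden : (r.den : Qbar) ≠ 0 := Nat.cast_ne_zero.2 r.den_nz
  have hrc : (r : Qbar) ≠ 0 := Rat.cast_ne_zero.2 hr
  have h1 : (r : Qbar) * (r.den : Qbar) = (r.num : Qbar) := by
    rw [← Rat.cast_natCast, ← Rat.cast_mul, Rat.mul_den_eq_num, Rat.cast_intCast]
  have h2 := gmean_logAbs_mul hrc hden
  rw [h1, gmean_logAbs_natCast r.den_nz, add_zero] at h2
  rw [← h2]
  have h3 : logAbs (r.num : Qbar) = logAbs (r.num.natAbs : Qbar) := funext fun v ↦ by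
    unfold logAbs
    rcases Int.natAbs_eq r.num with h | h <;> conv_lhs => rw [h]
    · simp
    · simp
  rw [h3]
  exact gmean_logAbs_natCast (Int.natAbs_ne_zero.2 (Rat.num_ne_zero.2 hr))

/-- The product formula. -/
theorem product_formula {a : Qbar} (ha : a ≠ 0) : gmean (logAbs a) = 0 := by
  have hfi : (MulAction.stabilizer GalQ a).FiniteIndex := finiteIndex_stabilizer_qbar a
  set H := MulAction.stabilizer GalQ a
  have : Fintype (GalQ ⧸ H) := Subgroup.fintypeQuotientOfFiniteIndex
  set P : Qbar := ∏ q : GalQ ⧸ H, q.out a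
  have hinv : ∀ h ∈ H, ∀ σ : GalQ, (σ * h) a = σ a := fun h hh σ ↦ by
    rw [AlgEquiv.mul_apply, show h a = a from hh]
  obtain ⟨r, hr⟩ := exists_ratCast_of_fixed (x := P) fun σ ↦ by
    rw [map_prod]
    refine Fintype.prod_equiv (MulAction.toPerm σ) _ _ fun q ↦ ?_
    induction q using QuotientGroup.induction_on with
    | H b =>
      show σ _ = (σ • (QuotientGroup.mk b : GalQ ⧸ H)).out a
      rw [MulAction.Quotient.smul_mk, smul_eq_mul, apply_out_mk (f := fun σ : GalQ ↦ σ a) hinv,
        apply_out_mk (f := fun σ : GalQ ↦ σ a) hinv, AlgEquiv.mul_apply]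
  have hP : P ≠ 0 := Finset.prod_ne_zero_iff.2 fun q _ ↦ (map_ne_zero_iff _ q.out.injective).2 ha
  have h0 : gmean (logAbs P) = 0 := by
    rw [← hr]
    exact gmean_logAbs_ratCast fun h ↦ hP (by rw [← hr, h, Rat.cast_zero])
  have h1 : ∀ q : GalQ ⧸ H, gmean (logAbs (q.out a)) = gmean (logAbs a) := fun q ↦
    gmean_translate (isAdelic_logAbs a) q.out
  rw [gmean_logAbs_prod _ _ fun q _ ↦ (map_ne_zero_iff _ q.out.injective).2 ha,
    Finset.sum_congr rfl fun q _ ↦ h1 q, Finset.sum_const, nsmul_eq_mul] at h0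
  refine (mul_eq_zero.1 h0).resolve_left ?_
  exact_mod_cast Finset.card_ne_zero_of_mem (Finset.mem_univ (QuotientGroup.mk 1 : GalQ ⧸ H))

end Fermat.Agent.MW.Mean
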