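import Fermat.Agent.MW.Local.Defs
import Mathlib.NumberTheory.Padics.Complex
import Mathlib.Analysis.Complex.Polynomial.Basic
import Mathlib.FieldTheory.IsAlgClosed.AlgebraicClosure
import Mathlib.Analysis.SpecialFunctions.Log.Basic
import Mathlib.Algebra.BigOperators.Finprod
import Mathlib.GroupTheory.GroupAction.Defs
import Mathlib.Algebra.Ring.Action.Group

/-!
# Absolute values on `ℚ̄`, orbit averages, absolute heights

The absolute logarithmic height of a vector over `ℚ̄` is the sum over the places of `ℚ` of the mean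
over the Galois orbit of the logarithm of the largest coordinate.
-/

set_option autoImplicit false

noncomputable section

open scoped TensorProduct

namespace Fermat.Agent.MW

/-- The field of algebraic numbers. -/
abbrev Qbar : Type := AlgebraicClosure ℚ

/-- The absolute Galois group of `ℚ`. -/
abbrev GalQ : Type := Qbar ≃ₐ[ℚ] Qbar

/-- A place of `ℚ`: a prime, or `none` for the real place. -/
abbrev Place : Type := Option Nat.Primes

/-- A fixed absolute value on `ℚ̄` above each place of `ℚ`. -/
def pabs : Place → AbsoluteValue Qbar ℝ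
  | none =>
    haveI : Algebra.IsAlgebraic ℚ Qbar := AlgebraicClosure.isAlgebraic ℚ
    let φ : Qbar →ₐ[ℚ] ℂ := IsAlgClosed.lift
    (NormedField.toAbsoluteValue ℂ).comp (f := φ.toRingHom) φ.toRingHom.injective
  | some p =>
    haveI : Fact p.1.Prime := ⟨p.2⟩
    haveI : Algebra.IsAlgebraic ℚ Qbar := AlgebraicClosure.isAlgebraic ℚ
    let φ : Qbar →ₐ[ℚ] PadicAlgCl p.1 := IsAlgClosed.lift
    (NormedField.toAbsoluteValue (PadicAlgCl p.1)).comp (f := φ.toRingHom) φ.toRingHom.injective

/-- The average of `Φ` over the Galois orbit of `x`. -/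
def oavg {X : Type*} [MulAction GalQ X] (x : X) (Φ : X → ℝ) : ℝ :=
  (∑ᶠ y ∈ MulAction.orbit GalQ x, Φ y) / Nat.card (MulAction.orbit GalQ x)

/-- The absolute logarithmic height of a point of projective space over `ℚ̄`. -/
def hgt {ι : Type*} [Fintype ι] [Nonempty ι] (x : ι → Qbar) : ℝ :=
  ∑ᶠ p : Place, oavg x fun y => Real.log (supMag (pabs p) y)

/-- `Φ` is bounded at each place and zero at almost all places. -/
def LocBdd {X : Type*} (Φ : Place → X → ℝ) : Prop :=
  ∃ C : Place →₀ ℝ, ∀ p x, |Φ p x| ≤ C p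

section Galois

variable {A₀ : Type} [CommRing A₀] [Algebra ℚ A₀]

/-- The Galois action on points of a curve defined over `ℚ`. -/
def galPt (σ : GalQ) : Pt Qbar (Qbar ⊗[ℚ] A₀) → Pt Qbar (Qbar ⊗[ℚ] A₀) :=
  Option.map fun φ =>
    Algebra.TensorProduct.lift (AlgHom.id Qbar Qbar)
      ((σ : Qbar →ₐ[ℚ] Qbar).comp ((φ.restrictScalars ℚ).comp Algebra.TensorProduct.includeRight))
      (fun _ _ => Commute.all _ _)

/-- The Galois action on functions with coefficients in `ℚ̄`. -/
def galFun (σ : GalQ) : Qbar ⊗[ℚ] A₀ →+* Qbar ⊗[ℚ] A₀ :=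
  (Algebra.TensorProduct.map (σ : Qbar →ₐ[ℚ] Qbar) (AlgHom.id ℚ A₀)).toRingHom

instance : MulAction GalQ (Pt Qbar (Qbar ⊗[ℚ] A₀)) where
  smul := galPt
  one_smul P := by
    change galPt 1 P = P
    rcases P with _ | φ
    · rfl
    · refine congrArg some (Algebra.TensorProduct.ext (AlgHom.ext fun c => ?_)
        (AlgHom.ext fun f => ?_))
      · simpa using (φ.commutes c).symm
      · simp
  mul_smul σ τ P := by
    change galPt (σ * τ) P = galPt σ (galPt τ P)
    rcases P with _ | φ
    · rfl
    · refine congrArg some (Algebra.TensorProduct.ext (AlgHom.ext fun c => ?_)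
        (AlgHom.ext fun f => ?_))
      · simp
      · simp

end Galois

end Fermat.Agent.MW
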