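import Fermat.Agent.MW.Height.UltraBasic
import Fermat.Agent.MW.Core.API

/-!
# Germs of points and of sections of bounded degree

Sequences of points and of sections of bounded degree define points and sections over the
ultrapower, compatibly with evaluation and coefficients.
-/

set_option autoImplicit false

noncomputable section

open Filter
open scoped TensorProduct

namespace Fermat.Agent.MW

instance instIsAlgClosedOmega : IsAlgClosed Omega := Omega.isAlgClosed_omega

namespace Omega

variable {A : Type} [CommRing A] [Algebra Qbar A]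

/-- The point of `Ω ⊗ A` attached to a point of `A` with values in `Ω`. -/
def pointExt (φ : A →ₐ[Qbar] Omega) : Omega ⊗[Qbar] A →ₐ[Omega] Omega :=
  Algebra.TensorProduct.lift (AlgHom.id Omega Omega) φ fun _ _ ↦ Commute.all _ _

/-- The extension of a point to pure tensors. -/
theorem pointExt_tmul (φ : A →ₐ[Qbar] Omega) (c : Omega) (f : A) :
    pointExt φ (c ⊗ₜ f) = c * φ f := by
  simp [pointExt]

/-- The germ of a sequence of finite points. -/
def germHom (φ : ℕ → (A →ₐ[Qbar] Qbar)) : A →ₐ[Qbar] Omega :=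
  toOmegaAlg.comp (AlgHom.pi φ)

/-- Unfolding of the germ of a sequence of homomorphisms. -/
theorem germHom_apply (φ : ℕ → (A →ₐ[Qbar] Qbar)) (f : A) :
    germHom φ f = toOmega fun n ↦ φ n f := rfl

/-- The germ of a sequence that is eventually at infinity. -/
theorem germPt_of_ev_none {P : ℕ → Pt Qbar A} (h : Ev fun n ↦ P n = none) : germPt P = none :=
  if_pos h

/-- The germ of a sequence that is eventually finite. -/
theorem germPt_of_ev_some {P : ℕ → Pt Qbar A} {φ : ℕ → (A →ₐ[Qbar] Qbar)}
    (h : Ev fun n ↦ P n = some (φ n)) : germPt P = some (pointExt (germHom φ)) := by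
  have h1 : ¬ Ev fun n ↦ P n = none := fun h' ↦ by
    obtain ⟨n, hn, hn'⟩ := (Filter.Eventually.and h h').exists
    exact Option.some_ne_none _ (hn.symm.trans hn')
  have hP : ∃ ψ : ℕ → (A →ₐ[Qbar] Qbar),
      ∀ᶠ n in (hyperfilter ℕ : Filter ℕ), P n = some (ψ n) := ⟨φ, h⟩
  unfold germPt
  refine (if_neg h1).trans ((dif_pos hP).trans ?_)
  refine congrArg some (congrArg pointExt (AlgHom.ext fun f ↦ ?_))
  show toOmega _ = toOmega _
  rw [toOmega_eq_iff]
  refine (Filter.Eventually.and hP.choose_spec h).mono fun n hn ↦ ?_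
  have h2 : hP.choose n = φ n := Option.some_injective _ (hn.1.symm.trans hn.2)
  exact AlgHom.congr_fun h2 f

/-- A sequence of points is eventually at infinity or eventually finite. -/
theorem ev_none_or_some (P : ℕ → Pt Qbar A) :
    (Ev fun n ↦ P n = none) ∨ ∃ φ : ℕ → (A →ₐ[Qbar] Qbar), Ev fun n ↦ P n = some (φ n) := by
  classical
  by_cases hne : Nonempty (A →ₐ[Qbar] Qbar)
  · rcases ev_or_not fun n ↦ P n = none with h | h
    · exact Or.inl h
    · refine Or.inr ⟨fun n ↦ (P n).getD (Classical.arbitrary _), h.mono fun n hn ↦ ?_⟩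
      obtain ⟨ψ, hψ⟩ := Option.ne_none_iff_exists'.1 hn
      show P n = some ((P n).getD _)
      rw [hψ]
      rfl
  · refine Or.inl (Eventually.of_forall fun n ↦ ?_)
    match P n with
    | none => rfl
    | some φ => exact absurd ⟨φ⟩ hne

variable (D : CurveBasis Qbar A)

/-- The lift of a sequence of sections to `(ℕ → ℚ̄) ⊗ A`. -/
def secLift (N : ℕ) (t : ℕ → A) : (ℕ → Qbar) ⊗[Qbar] A :=
  ∑ i ∈ Finset.range (N + 1), (fun n ↦ D.coeff i (t n)) ⊗ₜ D.e i

/-- The germ map on `(ℕ → ℚ̄) ⊗ A`. -/
def germTensor : (ℕ → Qbar) ⊗[Qbar] A →ₐ[Qbar] Omega ⊗[Qbar] A :=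
  Algebra.TensorProduct.map toOmegaAlg (AlgHom.id Qbar A)

/-- Evaluation of `(ℕ → ℚ̄) ⊗ A` at an index. -/
def atIndex (n : ℕ) : (ℕ → Qbar) ⊗[Qbar] A →ₐ[Qbar] A :=
  Algebra.TensorProduct.lift ((Algebra.ofId Qbar A).comp (Pi.evalAlgHom Qbar (fun _ ↦ Qbar) n))
    (AlgHom.id Qbar A) fun _ _ ↦ Commute.all _ _

theorem atIndex_tmul (n : ℕ) (c : ℕ → Qbar) (f : A) : atIndex n (c ⊗ₜ f) = c n • f := by
  simp [atIndex, Algebra.smul_def]

theorem germTensor_tmul (c : ℕ → Qbar) (f : A) :
    germTensor (c ⊗ₜ f) = toOmega c ⊗ₜ[Qbar] f := rfl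

/-- The germ of a sequence of sections of degree at most `N`. -/
def germSec (N : ℕ) (t : ℕ → A) : Omega ⊗[Qbar] A :=
  ∑ i ∈ Finset.range (N + 1), toOmega (fun n ↦ D.coeff i (t n)) ⊗ₜ[Qbar] D.e i

theorem germTensor_secLift (N : ℕ) (t : ℕ → A) :
    germTensor (secLift D N t) = germSec D N t := by
  simp only [secLift, germSec, map_sum, germTensor_tmul]

theorem coeff_germTensor (i : ℕ) (x : (ℕ → Qbar) ⊗[Qbar] A) :
    (D.baseChange Omega).coeff i (germTensor x) =
      toOmega fun n ↦ D.coeff i (atIndex n x) := by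
  induction x using TensorProduct.induction_on with
  | zero =>
    rw [map_zero, map_zero]
    exact (toOmega_eq_zero_iff.2 (Eventually.of_forall fun n ↦ by rw [map_zero, map_zero])).symm
  | tmul c f =>
    rw [germTensor_tmul, D.baseChange_coeff, algebraMap_apply, ← map_mul]
    congr 1
    funext n
    rw [atIndex_tmul, map_smul, smul_eq_mul]
    rfl
  | add x y hx hy =>
    rw [map_add, map_add, hx, hy, ← map_add]
    congr 1
    funext n
    rw [map_add, map_add]
    rfl

/-- A function is determined by its coefficients. -/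
theorem _root_.Fermat.Agent.MW.CurveBasis.ext_coeff {K B : Type} [Field K] [CommRing B]
    [Algebra K B] (E : CurveBasis K B) {f g : B} (h : ∀ i, E.coeff i f = E.coeff i g) : f = g := by
  refine E.basis.repr.injective (Finsupp.ext fun i ↦ ?_)
  have := h i.1
  simpa [CurveBasis.coeff, i.2] using this

/-- A function in `lev N` is the sum of its first `N + 1` terms. -/
theorem _root_.Fermat.Agent.MW.CurveBasis.sum_coeff_smul {K B : Type} [Field K] [CommRing B]
    [Algebra K B] (E : CurveBasis K B) {N : ℕ} {f : B} (hf : f ∈ E.lev N) :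
    ∑ i ∈ Finset.range (N + 1), E.coeff i f • E.e i = f := by
  induction hf using Submodule.span_induction with
  | mem x hx =>
    obtain ⟨j, hj, rfl⟩ := hx
    by_cases hg : j ∈ E.gaps
    · simp [E.e_gap hg]
    · simp only [E.coeff_e hg, ite_smul, one_smul, zero_smul]
      rw [Finset.sum_ite_eq', if_pos (Finset.mem_range.2 (Nat.lt_succ_of_le hj))]
  | zero => simp
  | add x y _ _ hx hy =>
    simp only [map_add, add_smul, Finset.sum_add_distrib, hx, hy]
  | smul c x _ hx =>
    simp only [map_smul, smul_assoc, ← Finset.smul_sum, hx]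

theorem atIndex_secLift (N : ℕ) (t : ℕ → A) {n : ℕ} (h : t n ∈ D.lev N) :
    atIndex n (secLift D N t) = t n := by
  rw [secLift, map_sum]
  simp only [atIndex_tmul]
  exact D.sum_coeff_smul h

/-- The coefficients of a germ of sections are the germs of the coefficients. -/
theorem coeff_germSec (i : ℕ) {N : ℕ} {t : ℕ → A} (h : Ev fun n ↦ t n ∈ D.lev N) :
    (D.baseChange Omega).coeff i (germSec D N t) = toOmega fun n ↦ D.coeff i (t n) := by
  rw [← germTensor_secLift, coeff_germTensor, toOmega_eq_iff]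
  exact h.mono fun n hn ↦ by rw [atIndex_secLift D N t hn]

/-- A germ of sections of degree `N` has degree `N`. -/
theorem germSec_mem_lev (N : ℕ) (t : ℕ → A) :
    germSec D N t ∈ (D.baseChange Omega).lev N := by
  refine Submodule.sum_mem _ fun i hi ↦ ?_
  have h : toOmega (fun n ↦ D.coeff i (t n)) ⊗ₜ[Qbar] D.e i =
      toOmega (fun n ↦ D.coeff i (t n)) • (D.baseChange Omega).e i := by
    rw [D.baseChange_e, TensorProduct.smul_tmul', smul_eq_mul, mul_one]
  rw [h]
  exact Submodule.smul_mem _ _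
    (Submodule.subset_span ⟨i, Nat.lt_succ_iff.1 (Finset.mem_range.1 hi), rfl⟩)

/-- Germs of sections are multiplicative. -/
theorem germSec_mul {M N : ℕ} {s t : ℕ → A} (hs : Ev fun n ↦ s n ∈ D.lev M)
    (ht : Ev fun n ↦ t n ∈ D.lev N) :
    germSec D (M + N) (fun n ↦ s n * t n) = germSec D M s * germSec D N t := by
  refine (D.baseChange Omega).ext_coeff fun i ↦ ?_
  rw [coeff_germSec D i ((Filter.Eventually.and hs ht).mono fun n hn ↦ D.mul_mem_lev hn.1 hn.2),
    ← germTensor_secLift, ← germTensor_secLift, ← map_mul, coeff_germTensor, toOmega_eq_iff]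
  exact (Filter.Eventually.and hs ht).mono fun n hn ↦ by
    rw [map_mul (atIndex n), atIndex_secLift D M s hn.1, atIndex_secLift D N t hn.2]

/-- Eventually equal sequences of sections have the same germ. -/
theorem germSec_congr {N : ℕ} {s t : ℕ → A} (h : Ev fun n ↦ s n = t n) :
    germSec D N s = germSec D N t := by
  refine Finset.sum_congr rfl fun i _ ↦ ?_
  congr 1
  exact toOmega_eq_iff.2 (h.mono fun n hn ↦ by rw [hn])

theorem germSec_one : germSec D 0 (fun _ ↦ (1 : A)) = 1 := by
  have h : (fun _ : ℕ ↦ D.coeff 0 (1 : A)) = 1 := funext fun _ ↦ by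
    rw [← D.e_zero, D.coeff_e D.zero_notMem, if_pos rfl]
    rfl
  rw [germSec, Finset.sum_range_one, h, map_one, D.e_zero]
  rfl

/-- The degree of a product of sections of degree `M`. -/
theorem prod_mem_lev {α : Type*} (s : Finset α) (u : α → A) (M : ℕ)
    (h : ∀ j ∈ s, u j ∈ D.lev M) : ∏ j ∈ s, u j ∈ D.lev (s.card * M) := by
  induction s using Finset.cons_induction with
  | empty =>
    rw [Finset.prod_empty, Finset.card_empty, zero_mul, ← D.e_zero]
    exact Submodule.subset_span ⟨0, le_refl 0, rfl⟩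
  | cons j s hj ih =>
    rw [Finset.prod_cons, Finset.card_cons, add_mul, one_mul, add_comm]
    exact D.mul_mem_lev (h j (Finset.mem_cons_self j s))
      (ih fun i hi ↦ h i (Finset.mem_cons_of_mem hi))

/-- The germ of a product of sections. -/
theorem germSec_prod {α : Type*} (s : Finset α) (u : α → ℕ → A) (M : ℕ)
    (h : ∀ j ∈ s, Ev fun n ↦ u j n ∈ D.lev M) :
    germSec D (s.card * M) (fun n ↦ ∏ j ∈ s, u j n) = ∏ j ∈ s, germSec D M (u j) := by
  induction s using Finset.cons_induction with
  | empty => simpa using germSec_one D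
  | cons j s hj ih =>
    have hs : ∀ i ∈ s, Ev fun n ↦ u i n ∈ D.lev M := fun i hi ↦ h i (Finset.mem_cons_of_mem hi)
    rw [Finset.prod_cons, Finset.card_cons, add_mul, one_mul, add_comm, ← ih hs,
      ← germSec_mul D (h j (Finset.mem_cons_self j s))]
    · simp only [Finset.prod_cons]
    · have hall : Ev fun n ↦ ∀ i : s, u i.1 n ∈ D.lev M := ev_forall.2 fun i ↦ hs i.1 i.2
      exact hall.mono fun n hn ↦ prod_mem_lev D s (fun i ↦ u i n) M fun i hi ↦ hn ⟨i, hi⟩

/-- The germ of eventually nonzero sections is nonzero. -/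
theorem germSec_ne_zero {N : ℕ} {t : ℕ → A} (h : Ev fun n ↦ t n ∈ D.lev N ∧ t n ≠ 0) :
    germSec D N t ≠ 0 := by
  intro h0
  have h1 : Ev fun n ↦ ∃ i : Fin (N + 1), D.coeff i (t n) ≠ 0 := h.mono fun n hn ↦ by
    by_contra hc
    simp only [not_exists, not_not] at hc
    refine hn.2 ?_
    rw [← D.sum_coeff_smul hn.1]
    exact Finset.sum_eq_zero fun i hi ↦ by rw [hc ⟨i, Finset.mem_range.1 hi⟩, zero_smul]
  obtain ⟨i, hi⟩ := ev_exists h1
  have h2 := coeff_germSec D i (h.mono fun n hn ↦ hn.1)
  rw [h0, map_zero] at h2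
  exact toOmega_ne_zero_iff.2 hi h2.symm

/-- Evaluation commutes with germs. -/
theorem evSec_germSec {N : ℕ} {t : ℕ → A} (h : Ev fun n ↦ t n ∈ D.lev N) (P : ℕ → Pt Qbar A) :
    (D.baseChange Omega).evSec N (germPt P) (germSec D N t) =
      toOmega fun n ↦ D.evSec N (P n) (t n) := by
  rcases ev_none_or_some P with hP | ⟨φ, hP⟩
  · rw [germPt_of_ev_none hP]
    refine (coeff_germSec D N h).trans (toOmega_eq_iff.2 (hP.mono fun n hn ↦ ?_))
    rw [hn]
    rfl
  · rw [germPt_of_ev_some hP]
    show pointExt (germHom φ) (germSec D N t) = _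
    have h1 : toOmega (fun n ↦ D.evSec N (P n) (t n)) =
        toOmega fun n ↦ φ n (∑ i ∈ Finset.range (N + 1), D.coeff i (t n) • D.e i) := by
      rw [toOmega_eq_iff]
      exact (Filter.Eventually.and h hP).mono fun n hn ↦ by
        rw [D.sum_coeff_smul hn.1, hn.2]
        rfl
    rw [h1, germSec, map_sum]
    simp only [pointExt_tmul, germHom_apply, ← map_mul]
    rw [← map_sum]
    congr 1
    funext n
    simp [Finset.sum_apply]

/-- The coordinates of a germ of points are the germs of the coordinates. -/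
theorem coord_germPt (P : ℕ → Pt Qbar A) (i : Fin (D.embDeg + 1)) :
    (D.baseChange Omega).coord (germPt P) i = toOmega fun n ↦ D.coord (P n) i := by
  have hlev : Ev fun _ ↦ D.e i ∈ D.lev D.embDeg := Eventually.of_forall fun _ ↦
    Submodule.subset_span ⟨i, Nat.lt_succ_iff.1 i.2, rfl⟩
  refine Eq.trans ?_ (evSec_germSec D (t := fun _ ↦ D.e i) hlev P)
  show (D.baseChange Omega).evSec _ _ ((D.baseChange Omega).e i) = _
  refine congrArg _ ((D.baseChange Omega).ext_coeff fun j ↦ ?_)
  rw [coeff_germSec D j (t := fun _ ↦ D.e i) hlev, D.baseChange_e, D.baseChange_coeff,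
    one_mul, algebraMap_apply]

end Omega

end Fermat.Agent.MW
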