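import Fermat.Agent.MW.Height.AdelicMean

/-!
# Orbit averages as means over the group; local terms of the height

The height is the adelic mean of the logarithm of the largest coordinate.
-/

set_option autoImplicit false

noncomputable section

namespace Fermat.Agent.MW.Mean

section Orbit

variable {X : Type*} [MulAction GalQ X]

theorem finiteIndex_stabilizer_of_finite (x : X) (hx : (MulAction.orbit GalQ x).Finite) :
    (MulAction.stabilizer GalQ x).FiniteIndex :=
  ⟨by
    rw [MulAction.index_stabilizer]
    exact ((Set.ncard_pos hx).2 (MulAction.nonempty_orbit x)).ne'⟩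

theorem stabilizer_invariant {β : Type*} (x : X) (Φ : X → β) :
    ∀ h ∈ MulAction.stabilizer GalQ x, ∀ σ : GalQ, Φ ((σ * h) • x) = Φ (σ • x) := fun h hh σ ↦ by
  rw [mul_smul, MulAction.mem_stabilizer_iff.1 hh]

theorem isLC_orbit {β : Type*} (x : X) (hx : (MulAction.orbit GalQ x).Finite) (Φ : X → β) :
    IsLC fun σ : GalQ ↦ Φ (σ • x) := by
  have := finiteIndex_stabilizer_of_finite x hx
  exact IsLC.of_subgroup _ (stabilizer_invariant x Φ)

theorem oavg_eq_avg (x : X) (hx : (MulAction.orbit GalQ x).Finite) (Φ : X → ℝ) :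
    oavg x Φ = avg fun σ : GalQ ↦ Φ (σ • x) := by
  have := finiteIndex_stabilizer_of_finite x hx
  rw [avg_eq_avgOn (stabilizer_invariant x Φ), avgOn, oavg, Nat.card_coe_set_eq,
    ← MulAction.index_stabilizer GalQ x, ← finsum_set_coe_eq_finsum_mem,
    ← finsum_comp_equiv (MulAction.orbitEquivQuotientStabilizer GalQ x).symm]
  congr 1
  refine finsum_congr fun q ↦ ?_
  congr 1
  induction q using QuotientGroup.induction_on with
  | H a =>
    rw [MulAction.orbitEquivQuotientStabilizer_symm_apply]
    exact (apply_out_mk (f := fun σ : GalQ ↦ σ • x) (stabilizer_invariant x id) a).symm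

end Orbit

/-- An algebraic number has finitely many conjugates. -/
theorem finite_orbit_elem (x : Qbar) : (MulAction.orbit GalQ x).Finite := by
  have h := (finiteIndex_stabilizer_qbar x).index_ne_zero
  rw [MulAction.index_stabilizer] at h
  exact Set.finite_of_ncard_ne_zero h

theorem finite_orbit_pi {ι : Type*} [Finite ι] (x : ι → Qbar) :
    (MulAction.orbit GalQ x).Finite := by
  refine (Set.Finite.pi fun i ↦ finite_orbit_elem (x i)).subset ?_
  rintro _ ⟨σ, rfl⟩ i -
  exact ⟨σ, rfl⟩

variable {ι : Type*} [Fintype ι] [Nonempty ι]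

/-- The local term of the height. -/
def locLog (x : ι → Qbar) : Idx → ℝ := fun v ↦ Real.log (supMag (absv v) x)

/-- Each entry is bounded by the size of the vector. -/
theorem le_supMag (v : AbsoluteValue Qbar ℝ) (x : ι → Qbar) (i : ι) : v (x i) ≤ supMag v x :=
  Finset.le_sup' (fun j ↦ v (x j)) (Finset.mem_univ i)

/-- A common bound on the entries bounds the size of the vector. -/
theorem supMag_le {v : AbsoluteValue Qbar ℝ} {x : ι → Qbar} {c : ℝ} (h : ∀ i, v (x i) ≤ c) :
    supMag v x ≤ c :=
  Finset.sup'_le _ _ fun i _ ↦ h i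

/-- The size of a vector is nonnegative. -/
theorem supMag_nonneg (v : AbsoluteValue Qbar ℝ) (x : ι → Qbar) : 0 ≤ supMag v x :=
  (v.nonneg (x (Classical.arbitrary ι))).trans (le_supMag v x _)

/-- The size of a nonzero vector is positive. -/
theorem supMag_pos (v : AbsoluteValue Qbar ℝ) {x : ι → Qbar} (hx : x ≠ 0) : 0 < supMag v x := by
  obtain ⟨i, hi⟩ := Function.ne_iff.1 hx
  exact (v.pos hi).trans_le (le_supMag v x i)

/-- The size of a vector is homogeneous. -/
theorem supMag_smul_const (v : AbsoluteValue Qbar ℝ) (c : Qbar) (x : ι → Qbar) :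
    supMag v (c • x) = v c * supMag v x := by
  refine le_antisymm (supMag_le fun i ↦ ?_) ?_
  · rw [Pi.smul_apply, smul_eq_mul, map_mul]
    exact mul_le_mul_of_nonneg_left (le_supMag v x i) (v.nonneg c)
  · obtain ⟨i, -, hi⟩ := Finset.exists_mem_eq_sup' Finset.univ_nonempty fun j : ι ↦ v (x j)
    have h : supMag v x = v (x i) := hi
    rw [h, ← map_mul]
    exact le_supMag v (c • x) i

/-- The local terms of a height form an adelic function. -/
theorem isAdelic_locLog (x : ι → Qbar) : IsAdelic (locLog x) := by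
  classical
  refine ⟨?_, fun p ↦ ?_⟩
  · refine (Set.finite_iUnion fun i ↦ (isAdelic_logAbs (x i)).finite_bad).subset ?_
    rintro p ⟨σ, hσ⟩
    by_contra h
    simp only [Set.mem_iUnion, Set.mem_ofPred_eq, not_exists, not_not] at h
    apply hσ
    rcases eq_or_ne x 0 with hx | hx
    · have h0 : supMag (absv (p, σ)) x = 0 :=
        le_antisymm (supMag_le fun i ↦ by rw [hx, Pi.zero_apply, map_zero]) (supMag_nonneg _ _)
      rw [locLog, h0, Real.log_zero]
    have h1 : ∀ i, x i ≠ 0 → absv (p, σ) (x i) = 1 := fun i hi ↦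
      Real.eq_one_of_pos_of_log_eq_zero ((absv _).pos hi) (h i σ)
    have h2 : supMag (absv (p, σ)) x = 1 := by
      refine le_antisymm (supMag_le fun i ↦ ?_) ?_
      · rcases eq_or_ne (x i) 0 with hi | hi
        · rw [hi, map_zero]; exact zero_le_one
        · exact (h1 i hi).le
      · obtain ⟨i, hi⟩ := Function.ne_iff.1 hx
        exact (h1 i hi).ge.trans (le_supMag _ x i)
    rw [locLog, h2, Real.log_one]
  · exact isLC_orbit x (finite_orbit_pi x) fun y ↦ Real.log (supMag (pabs p) y)

/-- The height is the adelic mean of its local terms. -/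
theorem hgt_eq_gmean (x : ι → Qbar) : hgt x = gmean (locLog x) :=
  finsum_congr fun _ ↦ oavg_eq_avg x (finite_orbit_pi x) _

end Fermat.Agent.MW.Mean
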