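import Fermat.Agent.MW.Height.GermSec
import Fermat.Agent.MW.Height.OrbitMean
import Fermat.Agent.MW.Local.Defs

/-!
# The valuation rings of the ultrapower attached to a sequence of places

For a sequence of places `p` and `w ∈ {0, 1}` (with `w = 0` only when `p` leaves every finite
set), the germs `x` with `log |x n|_{p n} ≤ C * w` eventually form a valuation subring containing
the constants. `Rep O w γ a` says that the real sequence `a` is, up to `O(w)`, the logarithmic
size of a sequence whose germ has valuation `γ`.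
-/

set_option autoImplicit false

noncomputable section

open Filter
open scoped TensorProduct

namespace Fermat.Agent.MW.Omega

/-- Either the scale is `1`, or it is `0` and the places leave every finite set. -/
def Regime (p : ℕ → Place) (w : ℝ) : Prop := w = 1 ∨ (w = 0 ∧ ∀ q, Ev fun n ↦ p n ≠ q)

/-- The sequence grows at most like the scale. -/
def Small (p : ℕ → Place) (w : ℝ) (f : ℕ → Qbar) : Prop :=
  ∃ C : ℝ, Ev fun n ↦ pabs (p n) (f n) ≤ Real.exp (C * w)

/-- A scale is nonnegative. -/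
theorem Regime.nonneg {p : ℕ → Place} {w : ℝ} (h : Regime p w) : 0 ≤ w := by
  rcases h with rfl | ⟨rfl, -⟩ <;> norm_num

/-- A product of small sequences is small. -/
theorem Small.mul {p : ℕ → Place} {w : ℝ} {f g : ℕ → Qbar} (hf : Small p w f) (hg : Small p w g) :
    Small p w (f * g) := by
  obtain ⟨C, hC⟩ := hf
  obtain ⟨C', hC'⟩ := hg
  refine ⟨C + C', (Eventually.and hC hC').mono fun n hn ↦ ?_⟩
  rw [Pi.mul_apply, map_mul, add_mul, Real.exp_add]
  exact mul_le_mul hn.1 hn.2 ((pabs _).nonneg _) (Real.exp_nonneg _)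

/-- The constant sequence `1` is small. -/
theorem Small.one (p : ℕ → Place) (w : ℝ) : Small p w 1 :=
  ⟨0, Eventually.of_forall fun n ↦ by simp⟩

/-- The negative of a small sequence is small. -/
theorem Small.neg {p : ℕ → Place} {w : ℝ} {f : ℕ → Qbar} (hf : Small p w f) :
    Small p w (-f) := by
  obtain ⟨C, hC⟩ := hf
  exact ⟨C, hC.mono fun n hn ↦ by simpa using hn⟩

/-- A sum of small sequences is small. -/
theorem Small.add {p : ℕ → Place} {w : ℝ} (h : Regime p w) {f g : ℕ → Qbar} (hf : Small p w f)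
    (hg : Small p w g) : Small p w (f + g) := by
  obtain ⟨C, hC⟩ := hf
  obtain ⟨C', hC'⟩ := hg
  rcases h with rfl | ⟨rfl, hp⟩
  · refine ⟨max C C' + Real.log 2, (Eventually.and hC hC').mono fun n hn ↦ ?_⟩
    rw [mul_one, Real.exp_add, Real.exp_log two_pos, Pi.add_apply]
    have h1 : pabs (p n) (f n) ≤ Real.exp (max C C') :=
      hn.1.trans (Real.exp_le_exp.2 (by rw [mul_one]; exact le_max_left _ _))
    have h2 : pabs (p n) (g n) ≤ Real.exp (max C C') :=
      hn.2.trans (Real.exp_le_exp.2 (by rw [mul_one]; exact le_max_right _ _))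
    linarith [(pabs (p n)).add_le (f n) (g n)]
  · refine ⟨0, ((Eventually.and hC hC').and (hp none)).mono fun n hn ↦ ?_⟩
    obtain ⟨q, hq⟩ := Option.ne_none_iff_exists'.1 hn.2
    simp only [mul_zero, Real.exp_zero] at hn ⊢
    rw [hq] at hn ⊢
    exact (Mean.absv_add_le_max q 1 (f n) (g n)).trans (max_le hn.1.1 hn.1.2)

theorem small_const {p : ℕ → Place} {w : ℝ} (h : Regime p w) (c : Qbar) :
    Small p w fun _ ↦ c := by
  classical
  obtain ⟨s, hs⟩ := Mean.absv_le_one_outside c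
  have hout : ∀ q : Place, q ∉ insert none (s.image some) → pabs q c ≤ 1 := fun q hq ↦ by
    cases q with
    | none => simp at hq
    | some q => exact hs q (by simpa using hq) 1
  rcases h with rfl | ⟨rfl, hp⟩
  · set T := insert none (s.image some)
    set M := 1 + ∑ q ∈ T, pabs q c with hM
    have hsum : 0 ≤ ∑ q ∈ T, pabs q c := Finset.sum_nonneg fun q _ ↦ (pabs q).nonneg c
    refine ⟨Real.log M, Eventually.of_forall fun n ↦ ?_⟩
    rw [mul_one, Real.exp_log (by linarith)]
    by_cases hn : p n ∈ T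
    · linarith [Finset.single_le_sum (f := fun q ↦ pabs q c) (fun q _ ↦ (pabs q).nonneg c) hn]
    · linarith [hout _ hn]
  · refine ⟨0, ?_⟩
    have : Ev fun n ↦ ∀ q : ((insert none (s.image some)) : Finset Place), p n ≠ q.1 :=
      ev_forall.2 fun q ↦ hp q.1
    exact this.mono fun n hn ↦ by
      simpa using hout (p n) fun hmem ↦ hn ⟨p n, hmem⟩ rfl

theorem small_congr {p : ℕ → Place} {w : ℝ} {f g : ℕ → Qbar} (h : Ev fun n ↦ f n = g n)
    (hf : Small p w f) : Small p w g := by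
  obtain ⟨C, hC⟩ := hf
  exact ⟨C, (Eventually.and hC h).mono fun n hn ↦ hn.2 ▸ hn.1⟩

/-- The valuation ring of a sequence of places at a scale. -/
def valRing (p : ℕ → Place) (w : ℝ) (h : Regime p w) : ValuationSubring Omega where
  carrier := {x | ∃ f, toOmega f = x ∧ Small p w f}
  mul_mem' := by
    rintro x y ⟨f, rfl, hf⟩ ⟨g, rfl, hg⟩
    exact ⟨f * g, map_mul _ _ _, hf.mul hg⟩
  one_mem' := ⟨1, map_one _, Small.one p w⟩
  add_mem' := by
    rintro x y ⟨f, rfl, hf⟩ ⟨g, rfl, hg⟩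
    exact ⟨f + g, map_add _ _ _, hf.add h hg⟩
  zero_mem' := ⟨0, map_zero _, ⟨0, Eventually.of_forall fun n ↦ by simp⟩⟩
  neg_mem' := by
    rintro x ⟨f, rfl, hf⟩
    exact ⟨-f, map_neg _ _, hf.neg⟩
  mem_or_inv_mem' x := by
    obtain ⟨f, rfl⟩ := toOmega_surjective x
    rcases ev_or_not fun n ↦ pabs (p n) (f n) ≤ 1 with h1 | h1
    · exact Or.inl ⟨f, rfl, 0, h1.mono fun n hn ↦ by simpa using hn⟩
    · refine Or.inr ⟨fun n ↦ (f n)⁻¹, ?_, 0, h1.mono fun n hn ↦ ?_⟩
      · refine eq_inv_of_mul_eq_one_left ?_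
        rw [← map_mul, ← map_one toOmega, toOmega_eq_iff]
        refine h1.mono fun n hn ↦ inv_mul_cancel₀ fun h0 ↦ hn ?_
        rw [h0, map_zero]
        exact zero_le_one
      · rw [zero_mul, Real.exp_zero, map_inv₀]
        exact inv_le_one_of_one_le₀ (not_le.1 hn).le

variable {p : ℕ → Place} {w : ℝ} (h : Regime p w)

theorem mem_valRing_iff {f : ℕ → Qbar} : toOmega f ∈ valRing p w h ↔ Small p w f :=
  ⟨fun ⟨_, hg, hs⟩ ↦ small_congr (toOmega_eq_iff.1 hg) hs, fun hf ↦ ⟨f, rfl, hf⟩⟩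

/-- The constants `ℚ̄` lie in the valuation ring of a scale. -/
theorem overBase_valRing : OverBase Qbar (valRing p w h) :=
  ⟨fun c ↦ (mem_valRing_iff h).2 (small_const h c)⟩

/-- `a` is the logarithmic size of a representative of a value `γ`. -/
def Rep (γ : (valRing p w h).ValueGroup) (a : ℕ → ℝ) : Prop :=
  ∃ f : ℕ → Qbar, (Ev fun n ↦ f n ≠ 0) ∧ γ = (valRing p w h).valuation (toOmega f) ∧
    ∃ C : ℝ, Ev fun n ↦ |a n - Real.log (pabs (p n) (f n))| ≤ C * w

theorem valuation_toOmega_ne_zero {f : ℕ → Qbar} (hf : Ev fun n ↦ f n ≠ 0) :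
    (valRing p w h).valuation (toOmega f) ≠ 0 :=
  (Valuation.ne_zero_iff _).2 (toOmega_ne_zero_iff.2 hf)

theorem le_of_valuation_le {f g : ℕ → Qbar} (hf : Ev fun n ↦ f n ≠ 0) (hg : Ev fun n ↦ g n ≠ 0)
    (hle : (valRing p w h).valuation (toOmega f) ≤ (valRing p w h).valuation (toOmega g)) :
    ∃ C : ℝ, Ev fun n ↦
      Real.log (pabs (p n) (f n)) - Real.log (pabs (p n) (g n)) ≤ C * w := by
  have h1 : (valRing p w h).valuation (toOmega fun n ↦ f n / g n) ≤ 1 := by
    have e : toOmega (fun n ↦ f n / g n) = toOmega f / toOmega g := by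
      rw [eq_div_iff (toOmega_ne_zero_iff.2 hg), ← map_mul, toOmega_eq_iff]
      exact hg.mono fun n hn ↦ div_mul_cancel₀ _ hn
    rw [e, map_div₀]
    exact div_le_one_of_le₀ hle zero_le
  rw [ValuationSubring.valuation_le_one_iff, mem_valRing_iff] at h1
  obtain ⟨C, hC⟩ := h1
  refine ⟨C, (Eventually.and hC (Eventually.and hf hg)).mono fun n hn ↦ ?_⟩
  have hpf := (pabs (p n)).pos hn.2.1
  have hpg := (pabs (p n)).pos hn.2.2
  have h0 : pabs (p n) (f n / g n) ≤ Real.exp (C * w) := hn.1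
  rw [map_div₀] at h0
  have h2 := Real.log_le_log (div_pos hpf hpg) h0
  rwa [Real.log_exp, Real.log_div hpf.ne' hpg.ne'] at h2

variable {h}

/-- A value with a representative is nonzero. -/
theorem Rep.ne_zero {γ : (valRing p w h).ValueGroup} {a : ℕ → ℝ} (hr : Rep h γ a) : γ ≠ 0 := by
  obtain ⟨f, hf, rfl, -⟩ := hr
  exact valuation_toOmega_ne_zero h hf

/-- Logarithmic sizes may be changed on a negligible set. -/
theorem Rep.congr {γ : (valRing p w h).ValueGroup} {a b : ℕ → ℝ} (hr : Rep h γ a)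
    (hab : Ev fun n ↦ a n = b n) : Rep h γ b := by
  obtain ⟨f, hf, rfl, C, hC⟩ := hr
  exact ⟨f, hf, rfl, C, (Eventually.and hC hab).mono fun n hn ↦ hn.2 ▸ hn.1⟩

/-- The logarithmic size of the value of a germ. -/
theorem rep_toOmega {f : ℕ → Qbar} (hf : Ev fun n ↦ f n ≠ 0) :
    Rep h ((valRing p w h).valuation (toOmega f)) fun n ↦ Real.log (pabs (p n) (f n)) :=
  ⟨f, hf, rfl, 0, Eventually.of_forall fun n ↦ by simp⟩

/-- The logarithmic size of `1` is `0`. -/
theorem Rep.one : Rep h (1 : (valRing p w h).ValueGroup) fun _ ↦ 0 := by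
  refine ⟨1, Eventually.of_forall fun n ↦ by simp, by rw [map_one, map_one], 0,
    Eventually.of_forall fun n ↦ by simp⟩

/-- Logarithmic sizes add under products. -/
theorem Rep.mul {γ δ : (valRing p w h).ValueGroup} {a b : ℕ → ℝ} (hr : Rep h γ a)
    (hs : Rep h δ b) : Rep h (γ * δ) fun n ↦ a n + b n := by
  obtain ⟨f, hf, rfl, C, hC⟩ := hr
  obtain ⟨g, hg, rfl, C', hC'⟩ := hs
  refine ⟨f * g, (Eventually.and hf hg).mono fun n hn ↦ mul_ne_zero hn.1 hn.2,
    by rw [map_mul, map_mul], C + C', ((Eventually.and hC hC').and (Eventually.and hf hg)).mono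
      fun n hn ↦ ?_⟩
  rw [Pi.mul_apply, map_mul, Real.log_mul ((pabs _).ne_zero hn.2.1) ((pabs _).ne_zero hn.2.2),
    add_mul]
  calc |a n + b n - (Real.log (pabs (p n) (f n)) + Real.log (pabs (p n) (g n)))|
      = |(a n - Real.log (pabs (p n) (f n))) + (b n - Real.log (pabs (p n) (g n)))| := by
        congr 1; ring
    _ ≤ _ := (abs_add_le _ _).trans (add_le_add hn.1.1 hn.1.2)

/-- Logarithmic sizes change sign under inversion. -/
theorem Rep.inv {γ : (valRing p w h).ValueGroup} {a : ℕ → ℝ} (hr : Rep h γ a) :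
    Rep h γ⁻¹ fun n ↦ - a n := by
  obtain ⟨f, hf, rfl, C, hC⟩ := hr
  refine ⟨fun n ↦ (f n)⁻¹, hf.mono fun n hn ↦ inv_ne_zero hn, ?_, C, hC.mono fun n hn ↦ ?_⟩
  · rw [← map_inv₀]
    congr 1
  · rwa [map_inv₀, Real.log_inv, ← neg_sub', abs_neg]

/-- Logarithmic sizes subtract under quotients. -/
theorem Rep.div {γ δ : (valRing p w h).ValueGroup} {a b : ℕ → ℝ} (hr : Rep h γ a)
    (hs : Rep h δ b) : Rep h (γ / δ) fun n ↦ a n - b n := by
  simpa only [div_eq_mul_inv, sub_eq_add_neg] using hr.mul hs.inv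

/-- Logarithmic sizes scale under powers. -/
theorem Rep.pow {γ : (valRing p w h).ValueGroup} {a : ℕ → ℝ} (hr : Rep h γ a) (k : ℕ) :
    Rep h (γ ^ k) fun n ↦ (k : ℝ) * a n := by
  induction k with
  | zero => simpa using Rep.one
  | succ k ih => simpa [pow_succ, add_mul] using ih.mul hr

/-- Logarithmic sizes add under finite products. -/
theorem Rep.prod {α : Type*} (s : Finset α) {γ : α → (valRing p w h).ValueGroup} {a : α → ℕ → ℝ}
    (hr : ∀ i ∈ s, Rep h (γ i) (a i)) : Rep h (∏ i ∈ s, γ i) fun n ↦ ∑ i ∈ s, a i n := by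
  induction s using Finset.cons_induction with
  | empty => simpa using Rep.one
  | cons i s hi ih =>
    simp only [Finset.prod_cons, Finset.sum_cons]
    exact (hr i (Finset.mem_cons_self i s)).mul (ih fun j hj ↦ hr j (Finset.mem_cons_of_mem hj))

/-- An inequality of values bounds the difference of the sizes from above. -/
theorem Rep.le {γ δ : (valRing p w h).ValueGroup} {a b : ℕ → ℝ} (hle : γ ≤ δ) (hr : Rep h γ a)
    (hs : Rep h δ b) : ∃ C : ℝ, Ev fun n ↦ a n - b n ≤ C * w := by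
  obtain ⟨f, hf, rfl, C₁, hC₁⟩ := hr
  obtain ⟨g, hg, rfl, C₂, hC₂⟩ := hs
  obtain ⟨C₃, hC₃⟩ := le_of_valuation_le h hf hg hle
  refine ⟨C₁ + C₂ + C₃, ((Eventually.and hC₁ hC₂).and hC₃).mono fun n hn ↦ ?_⟩
  have h1 := (abs_le.1 hn.1.1).2
  have h2 := (abs_le.1 hn.1.2).1
  linarith [hn.2]

/-- Equal values have sizes at bounded distance. -/
theorem Rep.approx {γ δ : (valRing p w h).ValueGroup} {a b : ℕ → ℝ} (heq : γ = δ)
    (hr : Rep h γ a) (hs : Rep h δ b) : ∃ C : ℝ, Ev fun n ↦ |a n - b n| ≤ C * w := by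
  obtain ⟨C, hC⟩ := hr.le heq.le hs
  obtain ⟨C', hC'⟩ := hs.le heq.ge hr
  refine ⟨max C C', (Eventually.and hC hC').mono fun n hn ↦ abs_le.2 ⟨?_, ?_⟩⟩
  · linarith [hn.2, mul_le_mul_of_nonneg_right (le_max_right C C') h.nonneg]
  · linarith [hn.1, mul_le_mul_of_nonneg_right (le_max_left C C') h.nonneg]

/-- The logarithmic size of the value of a vector of germs. -/
theorem rep_supMag {ι : Type*} [Fintype ι] [Nonempty ι] {x : ℕ → ι → Qbar}
    (hx : Ev fun n ↦ x n ≠ 0) :
    Rep h (supMag (valRing p w h).valuation fun i ↦ toOmega fun n ↦ x n i)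
      fun n ↦ Real.log (supMag (pabs (p n)) (x n)) := by
  have h1 : Ev fun n ↦ ∃ i, x n i ≠ 0 ∧ supMag (pabs (p n)) (x n) = pabs (p n) (x n i) :=
    hx.mono fun n hn ↦ by
      obtain ⟨i, -, hi⟩ :=
        Finset.exists_mem_eq_sup' Finset.univ_nonempty fun i ↦ pabs (p n) (x n i)
      refine ⟨i, fun h0 ↦ ?_, hi⟩
      have hpos := Mean.supMag_pos (pabs (p n)) hn
      rw [show supMag (pabs (p n)) (x n) = pabs (p n) (x n i) from hi, h0, map_zero] at hpos
      exact lt_irrefl 0 hpos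
  obtain ⟨i, hi⟩ := ev_exists h1
  have hi0 : Ev fun n ↦ x n i ≠ 0 := hi.mono fun n hn ↦ hn.1
  have e : supMag (valRing p w h).valuation (fun j ↦ toOmega fun n ↦ x n j)
      = (valRing p w h).valuation (toOmega fun n ↦ x n i) := by
    refine le_antisymm (Finset.sup'_le _ _ fun j _ ↦ ?_)
      (Finset.le_sup' (fun j ↦ (valRing p w h).valuation (toOmega fun n ↦ x n j))
        (Finset.mem_univ i))
    have hsmall : Small p w fun n ↦ x n j / x n i := ⟨0, hi.mono fun n hn ↦ by
      rw [zero_mul, Real.exp_zero, map_div₀]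
      refine div_le_one_of_le₀ ?_ ((pabs _).nonneg _)
      rw [← hn.2]
      exact Mean.le_supMag _ _ j⟩
    have e1 : toOmega (fun n ↦ x n j) =
        toOmega (fun n ↦ x n j / x n i) * toOmega fun n ↦ x n i := by
      rw [← map_mul, toOmega_eq_iff]
      exact hi0.mono fun n hn ↦ (div_mul_cancel₀ _ hn).symm
    show (valRing p w h).valuation (toOmega fun n ↦ x n j) ≤ _
    rw [e1, map_mul]
    exact mul_le_of_le_one_left zero_le
      (((valRing p w h).valuation_le_one_iff _).2 ((mem_valRing_iff h).2 hsmall))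
  rw [e]
  exact (rep_toOmega hi0).congr (hi.mono fun n hn ↦ by rw [hn.2])

end Fermat.Agent.MW.Omega
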