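import Fermat.Agent.MW.Height.OrbitMean

/-!
# Northcott's finiteness theorem

The polynomial with the orbit of an algebraic number as roots has rational coefficients of height
bounded by the degree and the height of the number, so there are finitely many such numbers.
-/

set_option autoImplicit false

noncomputable section

open Polynomial

namespace Fermat.Agent.MW.Mean

/-- `2` at the archimedean place and `1` elsewhere. -/
def triangleConst (v : Idx) : ℝ := if v.1 = none then 2 else 1

/-- The triangle constant is at least `1`. -/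
theorem one_le_triangleConst (v : Idx) : 1 ≤ triangleConst v := by
  unfold triangleConst; split_ifs <;> norm_num

/-- The triangle inequality with the triangle constant. -/
theorem absv_sub_le (v : Idx) (x y : Qbar) :
    absv v (x - y) ≤ triangleConst v * max (absv v x) (absv v y) := by
  obtain ⟨_ | p, σ⟩ := v
  · rw [triangleConst, if_pos rfl, sub_eq_add_neg]
    refine ((absv _).add_le x (-y)).trans ?_
    rw [AbsoluteValue.map_neg]
    linarith [le_max_left (absv (none, σ) x) (absv (none, σ) y),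
      le_max_right (absv (none, σ) x) (absv (none, σ) y)]
  · rw [triangleConst, if_neg (Option.some_ne_none p), one_mul, sub_eq_add_neg]
    refine (absv_add_le_max p σ x (-y)).trans ?_
    rw [AbsoluteValue.map_neg]

/-- The logarithm of the triangle constant. -/
theorem log_triangleConst (v : Idx) : Real.log (triangleConst v) = atInfinity (Real.log 2) v := by
  unfold triangleConst atInfinity; split_ifs <;> simp

/-- The size of the vector `(1, a)`. -/
theorem supMag_pair (v : AbsoluteValue Qbar ℝ) (a : Qbar) : supMag v ![1, a] = max 1 (v a) := by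
  refine le_antisymm (supMag_le fun i ↦ ?_) (max_le ?_ ?_)
  · fin_cases i <;> simp
  · simpa using le_supMag v ![1, a] 0
  · simpa using le_supMag v ![1, a] 1

theorem coeff_prod_le {α : Type*} (v : Idx) (s : Finset α) (a : α → Qbar) (k : ℕ) :
    absv v ((∏ i ∈ s, (X - C (a i))).coeff k) ≤
      ∏ i ∈ s, triangleConst v * supMag (absv v) ![1, a i] := by
  induction s using Finset.cons_induction generalizing k with
  | empty =>
    rw [Finset.prod_empty, Finset.prod_empty, coeff_one]
    split_ifs <;> simp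
  | cons i s hi ih =>
    rw [Finset.prod_cons, Finset.prod_cons, supMag_pair]
    set Q := ∏ j ∈ s, (X - C (a j))
    set M := ∏ j ∈ s, triangleConst v * supMag (absv v) ![1, a j]
    have hM : 0 ≤ M := (absv v).nonneg _ |>.trans (ih 0)
    have hc := one_le_triangleConst v
    have key : ∀ x y : Qbar, absv v x ≤ M → absv v y ≤ M →
        absv v (x - a i * y) ≤ triangleConst v * max 1 (absv v (a i)) * M := fun x y hx hy ↦ by
      refine (absv_sub_le v x _).trans ?_
      rw [mul_assoc]
      refine mul_le_mul_of_nonneg_left (max_le ?_ ?_) (by linarith)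
      · exact hx.trans (le_mul_of_one_le_left hM (le_max_left _ _))
      · rw [map_mul]
        exact mul_le_mul (le_max_right _ _) hy ((absv v).nonneg _)
          (zero_le_one.trans (le_max_left _ _))
    cases k with
    | zero =>
      have h := key 0 (Q.coeff 0) (by simpa using hM) (ih 0)
      simpa [sub_mul, coeff_sub, Polynomial.coeff_zero_eq_eval_zero] using h
    | succ k =>
      rw [sub_mul, coeff_sub, coeff_X_mul, coeff_C_mul]
      exact key _ _ (ih k) (ih (k + 1))

theorem hgt_pair_ratCast (r : ℚ) :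
    hgt ![1, (r : Qbar)] = Real.log (max (r.den : ℝ) |(r.num : ℝ)|) := by
  have hd : (r.den : Qbar) ≠ 0 := Nat.cast_ne_zero.2 r.den_nz
  have h1 : (r.den : Qbar) * (r : Qbar) = (r.num : Qbar) := by
    rw [← Rat.cast_natCast, ← Rat.cast_mul, Rat.den_mul_eq_num, Rat.cast_intCast]
  have hsup : ∀ v : Idx, supMag (absv v) ((r.den : Qbar) • ![1, (r : Qbar)]) =
      if v.1 = none then max (r.den : ℝ) |(r.num : ℝ)| else 1 := fun v ↦ by
    rw [supMag_smul_const, supMag_pair, mul_max_of_nonneg _ _ ((absv v).nonneg _), mul_one,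
      ← map_mul, h1]
    obtain ⟨_ | p, σ⟩ := v
    · rw [if_pos rfl, ← Rat.cast_natCast, ← Rat.cast_intCast, absv_none_ratCast, absv_none_ratCast]
      simp
    · rw [if_neg (Option.some_ne_none p), ← Rat.cast_natCast, ← Rat.cast_intCast,
        absv_some_ratCast, absv_some_ratCast, ← Rat.cast_max, ← Rat.cast_one, Rat.cast_inj]
      refine le_antisymm (max_le (padicNorm.of_nat r.den) (padicNorm.of_int r.num)) ?_
      by_cases hp : (p : ℕ) ∣ r.den
      · refine le_max_of_le_right (ge_of_eq ((padicNorm.int_eq_one_iff r.num).2 fun hn ↦ ?_))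
        exact Nat.Prime.not_coprime_iff_dvd.2
          ⟨p, p.2, Int.natCast_dvd.1 hn, hp⟩ r.reduced
      · exact le_max_of_le_left (ge_of_eq ((padicNorm.nat_eq_one_iff r.den).2 hp))
  have hgm : locLog ((r.den : Qbar) • ![1, (r : Qbar)]) =
      atInfinity (Real.log (max (r.den : ℝ) |(r.num : ℝ)|)) := funext fun v ↦ by
    rw [locLog, hsup, atInfinity]
    split_ifs <;> simp
  have hne : ![1, (r : Qbar)] ≠ 0 := fun h ↦ one_ne_zero (congrFun h 0 : (1 : Qbar) = 0)
  have hs : locLog ((r.den : Qbar) • ![1, (r : Qbar)]) =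
      fun v ↦ logAbs (r.den : Qbar) v + locLog ![1, (r : Qbar)] v := funext fun v ↦ by
    rw [locLog, supMag_smul_const, Real.log_mul ((absv v).ne_zero hd) (supMag_pos _ hne).ne']
    rfl
  have h2 := congrArg gmean (hs.symm.trans hgm)
  rw [gmean_add (isAdelic_logAbs _) (isAdelic_locLog _), product_formula hd, zero_add,
    gmean_atInfinity] at h2
  rw [hgt_eq_gmean, h2]

theorem finite_setOf_rat_hgt_le (B : ℝ) : {r : ℚ | hgt ![1, (r : Qbar)] ≤ B}.Finite := by
  set n : ℕ := ⌊Real.exp B⌋₊
  have hsub : {r : ℚ | hgt ![1, (r : Qbar)] ≤ B} ⊆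
      (fun x : ℤ × ℕ ↦ (x.1 : ℚ) / x.2) '' (Set.Icc (-(n : ℤ)) n ×ˢ Set.Iic n) := by
    intro r hr
    rw [Set.mem_ofPred_eq, hgt_pair_ratCast,
      Real.log_le_iff_le_exp (lt_max_of_lt_left (by exact_mod_cast r.den_pos)), max_le_iff] at hr
    refine ⟨(r.num, r.den), ⟨?_, Nat.le_floor hr.1⟩, Rat.num_div_den r⟩
    have h : (r.num.natAbs : ℝ) = |(r.num : ℝ)| := by
      rw [← Int.cast_abs, Int.abs_eq_natAbs, Int.cast_natCast]
    have h' : r.num.natAbs ≤ n := Nat.le_floor (h.trans_le hr.2)
    simp only [Set.mem_Icc]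
    omega
  exact (((Set.finite_Icc _ _).prod (Set.finite_Iic n)).image _).subset hsub

/-- The coefficients of the orbit polynomial are rational with height bounded in terms of the
degree and the height. -/
theorem exists_poly_of_hgt_le (y : Qbar) {d : ℕ} {B : ℝ}
    (hd : Nat.card (MulAction.orbit GalQ y) ≤ d) (hB : hgt ![1, y] ≤ B) :
    ∃ f : Fin (d + 1) → ℚ, (∀ k, hgt ![1, (f k : Qbar)] ≤ d * (Real.log 2 + B)) ∧
      (∑ k : Fin (d + 1), C (f k : Qbar) * X ^ (k : ℕ)) ≠ 0 ∧
      eval y (∑ k : Fin (d + 1), C (f k : Qbar) * X ^ (k : ℕ)) = 0 := by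
  have hfi := finiteIndex_stabilizer_qbar y
  set H := MulAction.stabilizer GalQ y
  have : Fintype (GalQ ⧸ H) := Subgroup.fintypeQuotientOfFiniteIndex
  set Q : Qbar[X] := ∏ q : GalQ ⧸ H, (X - C (q.out y))
  have hinv : ∀ h ∈ H, ∀ σ : GalQ, (σ * h) y = σ y := fun h hh σ ↦ by
    rw [AlgEquiv.mul_apply, show h y = y from hh]
  have hfix : ∀ σ : GalQ, Q.map σ.toRingEquiv.toRingHom = Q := fun σ ↦ by
    rw [Polynomial.map_prod]
    refine Fintype.prod_equiv (MulAction.toPerm σ) _ _ fun q ↦ ?_
    induction q using QuotientGroup.induction_on with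
    | H b =>
      show Polynomial.map _ (X - C _) = X - C ((σ • (QuotientGroup.mk b : GalQ ⧸ H)).out y)
      rw [Polynomial.map_sub, map_X, map_C, MulAction.Quotient.smul_mk, smul_eq_mul,
        apply_out_mk (f := fun σ : GalQ ↦ σ y) hinv, apply_out_mk (f := fun σ : GalQ ↦ σ y) hinv]
      rfl
  have hrat : ∀ k, ∃ r : ℚ, (r : Qbar) = Q.coeff k := fun k ↦
    exists_ratCast_of_fixed fun σ ↦ by
      conv_rhs => rw [← hfix σ, coeff_map]
      rfl
  choose f hf using hrat
  have hdeg : Q.natDegree ≤ d := by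
    have h : Q.natDegree = Fintype.card (GalQ ⧸ H) := natDegree_finsetProd_X_sub_C_eq_card _ _
    rw [h, ← Nat.card_eq_fintype_card, ← Subgroup.index_eq_card, MulAction.index_stabilizer,
      ← Nat.card_coe_set_eq]
    exact hd
  have hQ : ∑ k : Fin (d + 1), C (f k : Qbar) * X ^ (k : ℕ) = Q := by
    conv_rhs => rw [Q.as_sum_range_C_mul_X_pow' (Nat.lt_succ_of_le hdeg)]
    rw [← Fin.sum_univ_eq_sum_range]
    exact Finset.sum_congr rfl fun k _ ↦ by rw [hf]
  refine ⟨fun k ↦ f k, fun k ↦ ?_, ?_, ?_⟩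
  · have hterm : ∀ q : GalQ ⧸ H, IsAdelic (locLog ![1, q.out y]) := fun q ↦ isAdelic_locLog _
    have hsum : IsAdelic fun v ↦
        ∑ q : GalQ ⧸ H, (atInfinity (Real.log 2) v + locLog ![1, q.out y] v) :=
      IsAdelic.finset_sum _ _ fun q _ ↦ (isAdelic_atInfinity _).add (hterm q)
    have hle : gmean (locLog ![1, (f k : Qbar)]) ≤ gmean fun v ↦
        ∑ q : GalQ ⧸ H, (atInfinity (Real.log 2) v + locLog ![1, q.out y] v) := by
      refine gmean_mono (isAdelic_locLog _) hsum fun v ↦ ?_
      have hne : ∀ q : GalQ ⧸ H, supMag (absv v) ![1, q.out y] ≠ 0 := fun q ↦ by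
        rw [supMag_pair]
        exact (zero_lt_one.trans_le (le_max_left _ _)).ne'
      have htc : triangleConst v ≠ 0 := (zero_lt_one.trans_le (one_le_triangleConst v)).ne'
      rw [Finset.sum_congr rfl fun q _ ↦ show atInfinity (Real.log 2) v + locLog ![1, q.out y] v
          = Real.log (triangleConst v * supMag (absv v) ![1, q.out y]) by
            rw [Real.log_mul htc (hne q), log_triangleConst]; rfl,
        ← Real.log_prod fun q _ ↦ mul_ne_zero htc (hne q), locLog, supMag_pair, hf]
      refine Real.log_le_log (zero_lt_one.trans_le (le_max_left _ _)) (max_le ?_ ?_)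
      · refine Finset.one_le_prod fun q _ ↦ one_le_mul_of_one_le_of_one_le
          (one_le_triangleConst v) ?_
        rw [supMag_pair]
        exact le_max_left _ _
      · exact coeff_prod_le v _ _ _
    rw [hgt_eq_gmean]
    refine hle.trans ?_
    rw [gmean_sum _ _ fun q _ ↦ (isAdelic_atInfinity _).add (hterm q)]
    have hq : ∀ q : GalQ ⧸ H,
        gmean (fun v ↦ atInfinity (Real.log 2) v + locLog ![1, q.out y] v)
          = Real.log 2 + hgt ![1, y] := fun q ↦ by
      rw [gmean_add (isAdelic_atInfinity _) (hterm q), gmean_atInfinity, hgt_eq_gmean]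
      have h : locLog ![1, q.out y] = fun v ↦ locLog ![1, y] (v.1, v.2 * q.out) := funext fun v ↦ by
        simp only [locLog, supMag_pair]
        rfl
      rw [h, gmean_translate (isAdelic_locLog _)]
    rw [Finset.sum_congr rfl fun q _ ↦ hq q, Finset.sum_const, Finset.card_univ, nsmul_eq_mul]
    have h0 : 0 ≤ Real.log 2 + hgt ![1, y] := by
      refine add_nonneg (Real.log_nonneg one_le_two) ?_
      rw [hgt_eq_gmean]
      refine gmean_nonneg (isAdelic_locLog _) fun v ↦ Real.log_nonneg ?_
      rw [supMag_pair]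
      exact le_max_left _ _
    refine mul_le_mul ?_ (by linarith) h0 (Nat.cast_nonneg d)
    rw [← Nat.card_eq_fintype_card, ← Subgroup.index_eq_card, MulAction.index_stabilizer,
      ← Nat.card_coe_set_eq]
    exact_mod_cast hd
  · rw [hQ]
    exact (monic_prod_of_monic _ _ fun q _ ↦ monic_X_sub_C _).ne_zero
  · rw [hQ, eval_prod]
    refine Finset.prod_eq_zero (Finset.mem_univ (QuotientGroup.mk 1 : GalQ ⧸ H)) ?_
    rw [apply_out_mk (f := fun σ : GalQ ↦ σ y) hinv]
    simp

/-- Northcott: bounded degree and height allow finitely many algebraic numbers. -/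
theorem finite_setOf_hgt_le (d : ℕ) (B : ℝ) :
    {y : Qbar | Nat.card (MulAction.orbit GalQ y) ≤ d ∧ hgt ![1, y] ≤ B}.Finite := by
  have hF : {f : Fin (d + 1) → ℚ | ∀ k, hgt ![1, (f k : Qbar)] ≤ d * (Real.log 2 + B)}.Finite :=
    (Set.Finite.pi fun _ ↦ finite_setOf_rat_hgt_le _).subset fun f hf k _ ↦ hf k
  refine (hF.biUnion fun f _ ↦ show
    {y : Qbar | (∑ k : Fin (d + 1), C (f k : Qbar) * X ^ (k : ℕ)) ≠ 0 ∧
      eval y (∑ k : Fin (d + 1), C (f k : Qbar) * X ^ (k : ℕ)) = 0}.Finite from ?_).subset ?_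
  · by_cases h : (∑ k : Fin (d + 1), C (f k : Qbar) * X ^ (k : ℕ)) = 0
    · simp [h]
    · exact (finite_setOfPred_isRoot h).subset fun y hy ↦ hy.2
  · rintro y ⟨hd, hB⟩
    obtain ⟨f, h1, h2, h3⟩ := exists_poly_of_hgt_le y hd hB
    exact Set.mem_biUnion h1 ⟨h2, h3⟩

end Fermat.Agent.MW.Mean
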