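import Fermat.Agent.MW.Height.Defs
import Fermat.Agent.MW.Height.OrbitMean
import Fermat.Agent.MW.Height.Northcott

/-!
# Absolute heights on `ℚ̄`

The height is nonnegative and invariant under scaling by the product formula, and satisfies
Northcott's finiteness theorem.
-/

set_option autoImplicit false

noncomputable section

open scoped TensorProduct

namespace Fermat.Agent.MW

instance finite_orbit_qbar (x : Qbar) : Finite (MulAction.orbit GalQ x) :=
  (Mean.finite_orbit_elem x).to_subtype

/-- The height depends only on the point of projective space. -/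
theorem hgt_smul {ι : Type*} [Fintype ι] [Nonempty ι] (x : ι → Qbar) {c : Qbar} (hc : c ≠ 0) :
    hgt (c • x) = hgt x := by
  rcases eq_or_ne x 0 with rfl | hx
  · rw [smul_zero]
  have h : Mean.locLog (c • x) = fun v ↦ Mean.logAbs c v + Mean.locLog x v := funext fun v ↦ by
    rw [Mean.locLog, Mean.supMag_smul_const, Real.log_mul ((Mean.absv v).ne_zero hc)
      (Mean.supMag_pos _ hx).ne']
    rfl
  rw [Mean.hgt_eq_gmean, Mean.hgt_eq_gmean, h,
    Mean.gmean_add (Mean.isAdelic_logAbs c) (Mean.isAdelic_locLog x), Mean.product_formula hc,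
    zero_add]

/-- The height is nonnegative. -/
theorem hgt_nonneg {ι : Type*} [Fintype ι] [Nonempty ι] (x : ι → Qbar) : 0 ≤ hgt x := by
  rw [Mean.hgt_eq_gmean]
  rcases eq_or_ne x 0 with rfl | hx
  · refine Mean.gmean_nonneg (Mean.isAdelic_locLog _) fun v ↦ ?_
    have h0 : supMag (Mean.absv v) (0 : ι → Qbar) = 0 :=
      le_antisymm (Mean.supMag_le fun i ↦ by rw [Pi.zero_apply, map_zero])
        (Mean.supMag_nonneg _ _)
    rw [Mean.locLog, h0, Real.log_zero]
  obtain ⟨i, hi⟩ := Function.ne_iff.1 hx
  rw [← Mean.product_formula hi]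
  exact Mean.gmean_mono (Mean.isAdelic_logAbs _) (Mean.isAdelic_locLog x) fun v ↦
    Real.log_le_log ((Mean.absv v).pos hi) (Mean.le_supMag _ x i)

/-- Northcott's finiteness theorem. -/
theorem finite_hgt_le (d : ℕ) (B : ℝ) :
    {y : Qbar | Nat.card (MulAction.orbit GalQ y) ≤ d ∧ hgt ![1, y] ≤ B}.Finite :=
  Mean.finite_setOf_hgt_le d B

end Fermat.Agent.MW
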