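import Fermat.Agent.MW.Height.UltraDefs
import Fermat.Agent.MW.Height.AdelicMean
import Mathlib.Algebra.MvPolynomial.Cardinal
import Mathlib.Algebra.MvPolynomial.Funext
import Mathlib.RingTheory.Algebraic.Cardinality

/-!
# The ultrapower field: basic facts

The ultrapower is an algebraically closed extension of `ℚ̄`; equalities of germs are eventual
equalities.
-/

set_option autoImplicit false

noncomputable section

open Filter Polynomial
open scoped TensorProduct

namespace Fermat.Agent.MW.Omega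

/-- Eventually for the fixed ultrafilter. -/
def Ev (P : ℕ → Prop) : Prop := ∀ᶠ n in (hyperfilter ℕ : Filter ℕ), P n

/-- Ultrafilter dichotomy. -/
theorem ev_or_not (P : ℕ → Prop) : Ev P ∨ Ev fun n ↦ ¬ P n := (hyperfilter ℕ).em P

/-- Negation commutes with `Ev`. -/
theorem ev_not_iff (P : ℕ → Prop) : Ev (fun n ↦ ¬ P n) ↔ ¬ Ev P := Ultrafilter.eventually_not

/-- What holds for all large `n` holds eventually for the ultrafilter. -/
theorem ev_of_atTop {P : ℕ → Prop} (h : ∀ᶠ n in atTop, P n) : Ev P :=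
  Nat.hyperfilter_le_atTop h

/-- `Ev` commutes with finite universal quantifiers. -/
theorem ev_forall {α : Type*} [Finite α] {P : α → ℕ → Prop} :
    Ev (fun n ↦ ∀ i, P i n) ↔ ∀ i, Ev (P i) :=
  eventually_all

/-- `Ev` distributes over finite existential quantifiers. -/
theorem ev_exists {α : Type*} [Finite α] {P : α → ℕ → Prop} (h : Ev fun n ↦ ∃ i, P i n) :
    ∃ i, Ev (P i) := by
  by_contra hn
  rw [not_exists] at hn
  have h' : Ev fun n ↦ ∀ i, ¬ P i n := ev_forall.2 fun i ↦ (ev_not_iff _).2 (hn i)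
  obtain ⟨n, h1, h2⟩ := (Filter.Eventually.and h h').exists
  obtain ⟨i, hi⟩ := h1
  exact h2 i hi

/-- Every element of the ultrapower is a germ. -/
theorem toOmega_surjective : Function.Surjective toOmega := fun x ↦
  Germ.inductionOn x fun f ↦ ⟨f, rfl⟩

/-- Equality of germs is eventual equality. -/
theorem toOmega_eq_iff {f g : ℕ → Qbar} : toOmega f = toOmega g ↔ Ev fun n ↦ f n = g n :=
  Germ.coe_eq

/-- A germ vanishes exactly when the sequence eventually vanishes. -/
theorem toOmega_eq_zero_iff {f : ℕ → Qbar} : toOmega f = 0 ↔ Ev fun n ↦ f n = 0 := by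
  rw [← map_zero toOmega, toOmega_eq_iff]
  rfl

/-- A germ is nonzero exactly when the sequence is eventually nonzero. -/
theorem toOmega_ne_zero_iff {f : ℕ → Qbar} : toOmega f ≠ 0 ↔ Ev fun n ↦ f n ≠ 0 := by
  rw [ne_eq, toOmega_eq_zero_iff, ev_not_iff]

/-- Constants embed as germs of constant sequences. -/
theorem algebraMap_apply (c : Qbar) : algebraMap Qbar Omega c = toOmega fun _ ↦ c := rfl

/-- `toOmega` as an algebra map. -/
def toOmegaAlg : (ℕ → Qbar) →ₐ[Qbar] Omega where
  toRingHom := toOmega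
  commutes' _ := rfl

theorem toOmegaAlg_apply (f : ℕ → Qbar) : toOmegaAlg f = toOmega f := rfl

theorem exists_root_of_monic (p : Omega[X]) (hp : p.Monic) (hdeg : 0 < p.natDegree) :
    ∃ x, p.eval x = 0 := by
  classical
  choose g hg using fun i ↦ toOmega_surjective (p.coeff i)
  let n := p.natDegree
  let q : ℕ → Qbar[X] := fun m ↦ X ^ n + ∑ i ∈ Finset.range n, C (g i m) * X ^ i
  have hq : ∀ m, ∃ x, (q m).IsRoot x := fun m ↦ by
    refine IsAlgClosed.exists_root _ ?_
    have hlt : (∑ i ∈ Finset.range n, C (g i m) * X ^ i).degree < (n : WithBot ℕ) :=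
      (Polynomial.degree_sum_le _ _).trans_lt <| (Finset.sup_lt_iff (WithBot.bot_lt_coe n)).2
        fun i hi ↦ (degree_C_mul_X_pow_le i _).trans_lt
          (WithBot.coe_lt_coe.2 (Finset.mem_range.1 hi))
    show (X ^ n + _).degree ≠ 0
    rw [degree_add_eq_left_of_degree_lt (by rwa [degree_X_pow]), degree_X_pow]
    exact_mod_cast hdeg.ne'
  choose r hr using hq
  refine ⟨toOmega r, ?_⟩
  rw [hp.as_sum, eval_add, eval_pow, eval_X, eval_finsetSum]
  simp only [eval_mul, eval_C, eval_pow, eval_X, ← hg, ← map_pow, ← map_mul, ← map_sum,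
    ← map_add]
  rw [toOmega_eq_zero_iff]
  refine Eventually.of_forall fun m ↦ ?_
  have h := hr m
  simp only [Polynomial.IsRoot.def, q, eval_add, eval_pow, eval_X, eval_finsetSum, eval_mul,
    eval_C] at h
  simpa [Finset.sum_apply] using h

/-- The ultrapower of `ℚ̄` is algebraically closed. -/
theorem isAlgClosed_omega : IsAlgClosed Omega :=
  IsAlgClosed.of_exists_root _ fun p hp hirr ↦
    exists_root_of_monic p hp hirr.natDegree_pos

theorem countable_qbar : Countable Qbar :=
  Cardinal.mk_le_aleph0_iff.1 ((Algebra.IsAlgebraic.cardinalMk_le_max ℚ Qbar).trans (by simp))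

/-- The ultrapower contains algebraically independent tuples of every length. -/
theorem exists_algebraicIndependent (n : ℕ) :
    ∃ x : Fin n → Omega, AlgebraicIndependent Qbar x := by
  classical
  have := countable_qbar
  have : Countable (MvPolynomial (Fin n) Qbar) := Cardinal.mk_le_aleph0_iff.1
    (MvPolynomial.cardinalMk_le_max.trans (by simp))
  obtain ⟨enum, henum⟩ := exists_surjective_nat (MvPolynomial (Fin n) Qbar)
  have hpt : ∀ m, ∃ x : Fin n → Qbar,
      ∀ j ≤ m, enum j ≠ 0 → MvPolynomial.eval x (enum j) ≠ 0 := fun m ↦ by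
    set P := ∏ j ∈ (Finset.range (m + 1)).filter (enum · ≠ 0), enum j with hP
    have hP0 : P ≠ 0 := Finset.prod_ne_zero_iff.2 fun j hj ↦ (Finset.mem_filter.1 hj).2
    obtain ⟨x, hx⟩ : ∃ x, MvPolynomial.eval x P ≠ 0 := by
      by_contra h
      exact hP0 (MvPolynomial.funext fun x ↦ by
        rw [map_zero]
        by_contra hx
        exact h ⟨x, hx⟩)
    refine ⟨x, fun j hj hj0 ↦ ?_⟩
    rw [hP, map_prod, Finset.prod_ne_zero_iff] at hx
    exact hx j (Finset.mem_filter.2 ⟨Finset.mem_range.2 (Nat.lt_succ_of_le hj), hj0⟩)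
  choose x hx using hpt
  refine ⟨fun i ↦ toOmega fun m ↦ x m i, ?_⟩
  rw [algebraicIndependent_iff]
  intro q hq
  by_contra hq0
  obtain ⟨j, rfl⟩ := henum q
  have h1 : MvPolynomial.aeval (fun i ↦ toOmega fun m ↦ x m i) (enum j) =
      toOmega fun m ↦ MvPolynomial.eval (x m) (enum j) := by
    have h2 : MvPolynomial.aeval (fun i ↦ toOmegaAlg fun m ↦ x m i) (enum j) =
        toOmegaAlg (MvPolynomial.aeval (fun i m ↦ x m i) (enum j)) :=
      (AlgHom.congr_fun (MvPolynomial.comp_aeval _ toOmegaAlg) (enum j)).symm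
    refine h2.trans ((toOmegaAlg_apply _).trans (congrArg toOmega (funext fun m ↦ ?_)))
    exact (AlgHom.congr_fun (MvPolynomial.comp_aeval (fun i m ↦ x m i)
      (Pi.evalAlgHom Qbar (fun _ : ℕ ↦ Qbar) m)) (enum j))
  rw [h1] at hq
  refine (toOmega_ne_zero_iff.2 ?_) hq
  exact ev_of_atTop ((eventually_ge_atTop j).mono fun m hm ↦ hx m j hm hq0)

end Fermat.Agent.MW.Omega
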