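import Fermat.Agent.MW.Height.Defs
import Mathlib.Order.Filter.FilterProduct
import Mathlib.Order.Filter.Ultrafilter.Basic

/-!
# The ultrapower of `ℚ̄`

`Omega` is the ultrapower along a fixed nonprincipal ultrafilter on `ℕ`, with germs of sequences
and of points.
-/

set_option autoImplicit false

noncomputable section

open scoped TensorProduct
open Filter

namespace Fermat.Agent.MW

/-- The ultrapower of `ℚ̄` along a fixed nonprincipal ultrafilter on `ℕ`. -/
def Omega : Type := Germ (hyperfilter ℕ : Filter ℕ) Qbar

instance : Field Omega := inferInstanceAs (Field (Germ (hyperfilter ℕ : Filter ℕ) Qbar))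

/-- The germ of a sequence. -/
def toOmega : (ℕ → Qbar) →+* Omega where
  toFun f := ((f : Germ (hyperfilter ℕ : Filter ℕ) Qbar) : Omega)
  map_one' := rfl
  map_mul' _ _ := rfl
  map_zero' := rfl
  map_add' _ _ := rfl

instance : Algebra Qbar Omega := (toOmega.comp (Pi.constRingHom ℕ Qbar)).toAlgebra

variable {A : Type} [CommRing A] [Algebra Qbar A]

open scoped Classical in
/-- The germ of a sequence of points. -/
def germPt (P : ℕ → Pt Qbar A) : Pt Omega (Omega ⊗[Qbar] A) :=
  if ∀ᶠ n in (hyperfilter ℕ : Filter ℕ), P n = none then none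
  else
    if hP : ∃ φ : ℕ → (A →ₐ[Qbar] Qbar),
        ∀ᶠ n in (hyperfilter ℕ : Filter ℕ), P n = some (φ n) then
      some <| Algebra.TensorProduct.lift (AlgHom.id Omega Omega)
        ({ toRingHom := toOmega.comp (RingHom.pi fun n => (hP.choose n).toRingHom)
           commutes' := fun c => by
            refine congrArg toOmega (funext fun n => ?_)
            exact (hP.choose n).commutes c } : A →ₐ[Qbar] Omega)
        (fun _ _ => Commute.all _ _)
    else none

end Fermat.Agent.MW
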